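import Fermat.Agent.Ribet.H764.TransportFree
import Fermat.Agent.Ribet.Spec3

/-!
# Row RIBET, R3'-W / R3' / G2 from frozen S29 alone  (helper764)

`congruence_transport_S29`: let `E/ℚ` be an elliptic curve, `W₀`, `W` integral models of `E`,
`g` a normalised eigenform of level `M`, `𝔪` a maximal ideal of `ℤ̄` over a prime `p`, and assume
`a_ℓ(g) ≡ a_ℓ(W₀) mod 𝔪` for all primes `ℓ` outside a finite set at which `W₀` is good.
Then `a_{ℓ₀}(g) ≡ a_{ℓ₀}(W) mod 𝔪` for EVERY prime `ℓ₀ ∤ M p` at which `W` is good.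

The only hypothesis is frozen S29 (`Spec.S29Statement`); no trace formula, no determinant, no
irreducibility.  Landed inputs: `Lib.Cheb.chebotarev`, `Lib.Frob.Small.frobRelationAll`,
`S41.H701` (`#E[p] = p²`), `S55.H414` (Frobenius on roots of unity), `S54.exists_frobenius`.

Deliverables:
* `almostAllToWitnessW_of_S29 : S29Statement → AlmostAllToWitnessWStatement`     (R3'-W, row 38)
* `almostAllToWitnessW_of` : the same with the (unused) hypothesis `TraceFormulaWStatement`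
* `almostAllToWitness_of_S29 : S29Statement → AlmostAllToWitnessStatement`        (R3', Frey form)
* `modelTransport_of_S29 : S29Statement → ModelTransportStatement`                (G2, Frey form)
-/

set_option autoImplicit false

open WeierstrassCurve WeierstrassCurve.Affine WeierstrassCurve.Affine.Point
open CuspForm ModularFormClass Polynomial

namespace Fermat.Agent.Ribet.H764

open Fermat.Agent.Ribet.Spec

local notation "Qbar" => AlgebraicClosure ℚ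

/-- The affine coordinates of a point (empty for the origin). -/
def coordSet (E : WeierstrassCurve ℚ) : (E⁄Qbar).Point → Set Qbar
  | .zero => ∅
  | .some x y _ => {x, y}

theorem finite_coordSet (E : WeierstrassCurve ℚ) (P : (E⁄Qbar).Point) :
    (coordSet E P).Finite := by
  cases P with
  | zero => exact Set.finite_empty
  | some x y h =>
    show ({x, y} : Set Qbar).Finite
    exact Set.toFinite _

/-- Two automorphisms agreeing on the coordinates of a point agree on the point. -/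
theorem smul_eq_of_agree_on_coordSet (E : WeierstrassCurve ℚ) (σ τ : GQ) (P : (E⁄Qbar).Point)
    (h : ∀ z ∈ coordSet E P, σ z = τ z) : σ • P = τ • P := by
  cases P with
  | zero => rfl
  | some x y hxy =>
    rw [algEquiv_smul_def, algEquiv_smul_def, Point.map_some, Point.map_some]
    simp only [Point.some.injEq]
    exact ⟨h x (by simp [coordSet]), h y (by simp [coordSet])⟩

/-- The linear coefficient of `X² - uX + v`. -/
theorem coeff_one_quadratic {R : Type*} [CommRing R] (u v : R) :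
    (X ^ 2 - C u * X + C v : R[X]).coeff 1 = -u := by
  simp [coeff_C, coeff_X_pow]

/-- **Core of R3'-W / R3' / G2, from frozen S29 alone.** -/
theorem congruence_transport_S29 (h29 : S29Statement)
    (E : WeierstrassCurve ℚ) (hEΔ : E.Δ ≠ 0) (p : ℕ) (hpp : p.Prime) (M : ℕ)
    (g : CuspForm (CongruenceSubgroup.Gamma0 M) 2) (hg : g.IsNormalizedEigenform)
    (𝔪 : Ideal (integralClosure ℤ ℂ)) (h𝔪 : 𝔪.IsMaximal)
    (hp : (p : integralClosure ℤ ℂ) ∈ 𝔪)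
    (W₀ : WeierstrassCurve ℤ) (hW₀ : W₀.IsIntegralModelOf E) (S : Finset ℕ)
    (hcong : ∀ ℓ : ℕ, ℓ.Prime → ℓ ∉ S → W₀.IsGoodPrimeFor ℓ →
      ∃ b : integralClosure ℤ ℂ, (b : ℂ) = qCoeff g ℓ ∧
        b - ((W₀.apOfModel ℓ : ℤ) : integralClosure ℤ ℂ) ∈ 𝔪)
    (W : WeierstrassCurve ℤ) (hW : W.IsIntegralModelOf E)
    (ℓ₀ : ℕ) (hℓ₀ : ℓ₀.Prime) (hgood : W.IsGoodPrimeFor ℓ₀) (hℓ₀M : ¬ ℓ₀ ∣ M)
    (hℓ₀p : ℓ₀ ≠ p) :
    ∃ a : integralClosure ℤ ℂ, (a : ℂ) = qCoeff g ℓ₀ ∧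
      a - ((W.apOfModel ℓ₀ : ℤ) : integralClosure ℤ ℂ) ∈ 𝔪 := by
  have hM : M ≠ 0 := by
    rintro rfl
    exact hℓ₀M (dvd_zero _)
  have hell : E.IsElliptic := ⟨isUnit_iff_ne_zero.mpr hEΔ⟩
  have hW₀Δ : W₀.Δ ≠ 0 := (disc_ne_zero_iff_of_isIntegralModelOf hW₀).mpr hEΔ
  -- a nonzero `p`-torsion point
  have hcard : Nat.card (Submodule.torsionBy ℤ (E⁄Qbar).Point p) = p ^ 2 :=
    Fermat.Agent.S41.H701.card_torsion_eq_sq_prelude_h701 (K := Qbar) E p hpp.one_le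
  obtain ⟨x₀, hx₀⟩ : ∃ x : Submodule.torsionBy ℤ (E⁄Qbar).Point p, x ≠ 0 := by
    by_contra hall
    simp only [ne_eq, not_exists, not_not] at hall
    have hsub : Subsingleton (Submodule.torsionBy ℤ (E⁄Qbar).Point p) :=
      ⟨fun a b => by rw [hall a, hall b]⟩
    have h1 : Nat.card (Submodule.torsionBy ℤ (E⁄Qbar).Point p) = 1 :=
      Nat.card_of_subsingleton 0
    rw [hcard] at h1
    have := hpp.one_lt
    nlinarith
  set x : (E⁄Qbar).Point := (x₀ : (E⁄Qbar).Point) with hx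
  have hx0 : x ≠ 0 := fun h => hx₀ (Subtype.ext h)
  have hpx : (p : ℤ) • x = 0 := (Submodule.mem_torsionBy_iff _ _).mp x₀.2
  have hpx' : p • x = 0 := by
    rw [← natCast_zsmul]; exact hpx
  -- the residual representation attached to `g` over `k = ℤ̄ / 𝔪`
  haveI := h𝔪
  letI : Field (integralClosure ℤ ℂ ⧸ 𝔪) := Ideal.Quotient.field 𝔪
  have hpk : ((p : ℕ) : integralClosure ℤ ℂ ⧸ 𝔪) = 0 := by
    have h1 := Ideal.Quotient.eq_zero_iff_mem.mpr hp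
    rw [map_natCast] at h1
    exact h1
  haveI : CharP (integralClosure ℤ ℂ ⧸ 𝔪) p := (CharP.charP_iff_prime_eq_zero hpp).mpr hpk
  obtain ⟨ρ, hatt, -⟩ := h29 hg hpp (Ideal.Quotient.mk 𝔪)
  obtain ⟨Lρ, hLρfin, hLρ⟩ := ρ.factorsThroughFiniteLevel
  obtain ⟨A₀, σ₀, hA₀, hσ₀⟩ := Fermat.Agent.S54.exists_frobenius ℓ₀ hℓ₀
  -- a primitive `p`-th root of unity
  have : NeZero (p : ℚ) := ⟨by exact_mod_cast hpp.ne_zero⟩
  obtain ⟨ζ, hζ⟩ := HasEnoughRootsOfUnity.exists_primitiveRoot Qbar p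
  have hζp : ζ ^ p = 1 := hζ.pow_eq_one
  -- the auxiliary field
  set T : Set Qbar := coordSet E x ∪ coordSet E (σ₀ • x) ∪ {ζ} with hT
  have hTfin : T.Finite :=
    ((finite_coordSet E x).union (finite_coordSet E (σ₀ • x))).union (Set.finite_singleton ζ)
  have hfin2 : FiniteDimensional ℚ (IntermediateField.adjoin ℚ T) := by
    have : Finite T := hTfin.to_subtype
    exact IntermediateField.finiteDimensional_adjoin
      (fun z _ => (AlgebraicClosure.isAlgebraic ℚ).isIntegral.isIntegral z)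
  have hle1 : Lρ ≤ Lρ ⊔ IntermediateField.adjoin ℚ T := le_sup_left
  have hle2 : IntermediateField.adjoin ℚ T ≤ Lρ ⊔ IntermediateField.adjoin ℚ T := le_sup_right
  obtain ⟨ℓ, A, τ, hℓ, hℓS, hA, hτ, -, hτσ⟩ := Fermat.Agent.Lib.Cheb.chebotarev
    (Lρ ⊔ IntermediateField.adjoin ℚ T) inferInstance σ₀
    (S ∪ M.primeFactors ∪ {p} ∪ W₀.Δ.natAbs.primeFactors)
  simp only [Finset.mem_union, Finset.mem_singleton, not_or] at hℓS
  obtain ⟨⟨⟨hℓS, hℓM⟩, hℓp⟩, hℓbad⟩ := hℓS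
  have hℓM' : ¬ ℓ ∣ M := fun h => hℓM (Nat.mem_primeFactors.mpr ⟨hℓ, h, hM⟩)
  have hℓgood : W₀.IsGoodPrimeFor ℓ := isGoodPrimeFor_of_not_mem hW₀Δ hℓ hℓbad
  have hτT : ∀ z ∈ T, τ z = σ₀ z :=
    fun z hz => hτσ z (hle2 (IntermediateField.subset_adjoin ℚ T hz))
  have hτσζ : τ ζ = σ₀ ζ := hτT ζ (by rw [hT]; simp)
  -- `ℓ ≡ ℓ₀ mod p`
  have hcongr : (p : ℤ) ∣ (ℓ : ℤ) - ℓ₀ := by
    apply int_dvd_sub_of_pow_eq hζ hpp.ne_zero
    rw [← frob_apply_root_h764 p hpp ℓ hℓ hℓp A τ hA hτ ζ hζp,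
      ← frob_apply_root_h764 p hpp ℓ₀ hℓ₀ hℓ₀p A₀ σ₀ hA₀ hσ₀ ζ hζp, hτσζ]
  -- `ρ τ = ρ σ₀`
  have hρ : ρ.ρ τ = ρ.ρ σ₀ := by
    have h1 : ρ.ρ (σ₀⁻¹ * τ) = 1 := by
      apply hLρ
      intro z hz
      rw [AlgEquiv.mul_apply, hτσ z (hle1 hz)]
      exact σ₀.symm_apply_apply z
    have h2 : ρ.ρ τ = ρ.ρ (σ₀ * (σ₀⁻¹ * τ)) := by rw [mul_inv_cancel_left]
    rw [h2, map_mul, h1, mul_one]
  -- the two Frobenius relations at the point `x`
  have hτx : τ • x = σ₀ • x :=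
    smul_eq_of_agree_on_coordSet E τ σ₀ x (fun z hz => hτT z (by rw [hT]; simp [hz]))
  have hττx : τ • σ₀ • x = σ₀ • σ₀ • x :=
    smul_eq_of_agree_on_coordSet E τ σ₀ (σ₀ • x) (fun z hz => hτT z (by rw [hT]; simp [hz]))
  have hℓ₀ndvd : ¬ ℓ₀ ∣ p := fun h => hℓ₀p ((Nat.prime_dvd_prime_iff_eq hℓ₀ hpp).mp h)
  have hℓndvd : ¬ ℓ ∣ p := fun h => hℓp ((Nat.prime_dvd_prime_iff_eq hℓ hpp).mp h)
  have r1 := frob_relation_of_model E W hW ℓ₀ hℓ₀ hgood A₀ σ₀ hA₀ hσ₀ p hpp.pos hℓ₀ndvd x hpx'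
  have r2 := frob_relation_of_model E W₀ hW₀ ℓ hℓ hℓgood A τ hA hτ p hpp.pos hℓndvd x hpx'
  rw [hτx, hττx] at r2
  have hy0 : σ₀ • x ≠ 0 := by
    intro h0
    apply hx0
    have h2 : σ₀⁻¹ • σ₀ • x = σ₀⁻¹ • (0 : (E⁄Qbar).Point) := congrArg (fun z => σ₀⁻¹ • z) h0
    rw [inv_smul_smul] at h2
    exact h2.trans (smul_zero (A := (E⁄Qbar).Point) (σ₀⁻¹ : GQ))
  have hpy : (p : ℤ) • (σ₀ • x) = 0 := by
    have h1 := map_zsmul (DistribSMul.toAddMonoidHom (E⁄Qbar).Point σ₀) (p : ℤ) x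
    simp only [DistribSMul.toAddMonoidHom_apply] at h1
    rw [← h1, hpx]
    exact smul_zero (A := (E⁄Qbar).Point) (σ₀ : GQ)
  have hℓx : ((ℓ : ℤ) - ℓ₀) • x = 0 := by
    obtain ⟨d, hd⟩ := hcongr
    rw [hd, mul_comm, mul_smul, hpx]
    exact zsmul_zero d
  have hdiff : (W.apOfModel ℓ₀ - W₀.apOfModel ℓ) • (σ₀ • x) = 0 := by
    have e1 : W.apOfModel ℓ₀ • σ₀ • x = σ₀ • σ₀ • x + (ℓ₀ : ℤ) • x := by
      have h3 : σ₀ • σ₀ • x + (ℓ₀ : ℤ) • x - W.apOfModel ℓ₀ • σ₀ • x = 0 := by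
        rw [← r1]; abel
      exact (sub_eq_zero.mp h3).symm
    have e2 : W₀.apOfModel ℓ • σ₀ • x = σ₀ • σ₀ • x + (ℓ : ℤ) • x := by
      have h3 : σ₀ • σ₀ • x + (ℓ : ℤ) • x - W₀.apOfModel ℓ • σ₀ • x = 0 := by
        rw [← r2]; abel
      exact (sub_eq_zero.mp h3).symm
    have e3 : (ℓ : ℤ) • x = (ℓ₀ : ℤ) • x := by
      rw [sub_smul] at hℓx
      exact sub_eq_zero.mp hℓx
    rw [sub_smul, e1, e2, e3, sub_self]
  have hdvd : (p : ℤ) ∣ W.apOfModel ℓ₀ - W₀.apOfModel ℓ :=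
    int_dvd_of_zsmul_eq_zero hpp hy0 hpy hdiff
  -- conclusion: compare the characteristic polynomials
  have hℓk : ((ℓ : ℕ) : integralClosure ℤ ℂ ⧸ 𝔪) ≠ 0 := by
    intro h0
    have := (CharP.cast_eq_zero_iff (integralClosure ℤ ℂ ⧸ 𝔪) p ℓ).mp h0
    exact hℓp ((Nat.prime_dvd_prime_iff_eq hpp hℓ).mp this).symm
  have hℓ₀k : ((ℓ₀ : ℕ) : integralClosure ℤ ℂ ⧸ 𝔪) ≠ 0 := by
    intro h0
    have := (CharP.cast_eq_zero_iff (integralClosure ℤ ℂ ⧸ 𝔪) p ℓ₀).mp h0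
    exact hℓ₀p ((Nat.prime_dvd_prime_iff_eq hpp hℓ₀).mp this).symm
  obtain ⟨a, haC, hachar⟩ := hatt ℓ hℓ hℓM' hℓk A hA τ hτ
  obtain ⟨a₀, ha₀C, ha₀char⟩ := hatt ℓ₀ hℓ₀ hℓ₀M hℓ₀k A₀ hA₀ σ₀ hσ₀
  obtain ⟨b, hbC, hb𝔪⟩ := hcong ℓ hℓ hℓS hℓgood
  have hab : a = b := Subtype.ext (haC.trans hbC.symm)
  have hφa : Ideal.Quotient.mk 𝔪 a₀ = Ideal.Quotient.mk 𝔪 a := by
    have h1 := congrArg (fun q => Polynomial.coeff q 1) ha₀char
    have h2 := congrArg (fun q => Polynomial.coeff q 1) hachar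
    simp only [coeff_one_quadratic] at h1 h2
    rw [hρ] at h2
    exact neg_injective (h1.symm.trans h2)
  refine ⟨a₀, ha₀C, ?_⟩
  have hsplit : a₀ - ((W.apOfModel ℓ₀ : ℤ) : integralClosure ℤ ℂ) =
      (a₀ - a) + (b - ((W₀.apOfModel ℓ : ℤ) : integralClosure ℤ ℂ)) -
        (((W.apOfModel ℓ₀ - W₀.apOfModel ℓ : ℤ) : ℤ) : integralClosure ℤ ℂ) := by
    rw [hab]; push_cast; ring
  rw [hsplit]
  refine 𝔪.sub_mem (𝔪.add_mem ?_ hb𝔪) ?_
  · rw [← Ideal.Quotient.eq_zero_iff_mem, map_sub, hφa, sub_self]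
  · obtain ⟨d, hd⟩ := hdvd
    rw [hd]
    push_cast
    exact 𝔪.mul_mem_right _ hp

/-- An integral curve is an integral model of its own generic fibre. -/
theorem isIntegralModelOf_map_self (W : WeierstrassCurve ℤ) :
    W.IsIntegralModelOf (W.map (Int.castRingHom ℚ)) :=
  ⟨1, one_smul _ _⟩

/-- **(R3'-W)** from frozen S29 alone (irreducibility and `p ≠ 2` are not used). -/
theorem almostAllToWitnessW_of_S29 (h29 : S29Statement) : AlmostAllToWitnessWStatement := by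
  intro W p M hΔ hp _ _ _ g 𝔪 S hg h𝔪 hp𝔪 hcong
  refine ⟨hg, h𝔪, hp𝔪, ?_⟩
  intro ℓ₀ hℓ₀ hgood hℓ₀M hℓ₀p
  have hEΔ : (W.map (Int.castRingHom ℚ)).Δ ≠ 0 := by
    rw [WeierstrassCurve.map_Δ]
    simpa using hΔ
  exact congruence_transport_S29 h29 (W.map (Int.castRingHom ℚ)) hEΔ p hp M g hg 𝔪 h𝔪 hp𝔪
    W (isIntegralModelOf_map_self W) S (fun ℓ hℓ hℓS _ => hcong ℓ hℓ hℓS)
    W (isIntegralModelOf_map_self W) ℓ₀ hℓ₀ hgood hℓ₀M hℓ₀p

/-- (R3'-W) in the shape of board v3 (the trace formula is not needed). -/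
theorem almostAllToWitnessW_of (h29 : S29Statement) (_hTF : TraceFormulaWStatement) :
    AlmostAllToWitnessWStatement :=
  almostAllToWitnessW_of_S29 h29

/-- **(R3')**, Frey form, from frozen S29 alone. -/
theorem almostAllToWitness_of_S29 (h29 : S29Statement) : AlmostAllToWitnessStatement := by
  intro P M _ g W 𝔪 S hg hW h𝔪 hp hcong
  refine ⟨hg, hW, h𝔪, hp, ?_⟩
  intro ℓ₀ hℓ₀ hgood hℓ₀M hℓ₀p
  have hEΔ : P.freyCurve.Δ ≠ 0 :=
    (disc_ne_zero_iff_of_isIntegralModelOf hW).mp (disc_ne_zero_of_isGoodPrimeFor hgood)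
  exact congruence_transport_S29 h29 P.freyCurve hEΔ P.p P.pp M g hg 𝔪 h𝔪 hp W hW S
    (fun ℓ hℓ hℓS _ => hcong ℓ hℓ hℓS) W hW ℓ₀ hℓ₀ hgood hℓ₀M hℓ₀p

/-- **(G2)**, Frey form, from frozen S29 alone. -/
theorem modelTransport_of_S29 (h29 : S29Statement) : ModelTransportStatement := by
  intro P N hN hmod W hW
  obtain ⟨f, W₀, 𝔪, hf, hW₀, h𝔪, hp, hcong⟩ := hmod
  refine ⟨f, 𝔪, hf, h𝔪, hp, ?_⟩
  intro ℓ₀ hℓ₀ hgood hℓ₀N hℓ₀p
  have hEΔ : P.freyCurve.Δ ≠ 0 :=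
    (disc_ne_zero_iff_of_isIntegralModelOf hW).mp (disc_ne_zero_of_isGoodPrimeFor hgood)
  refine congruence_transport_S29 h29 P.freyCurve hEΔ P.p P.pp N f hf 𝔪 h𝔪 hp W₀ hW₀
    (N.primeFactors ∪ {P.p}) ?_ W hW ℓ₀ hℓ₀ hgood hℓ₀N hℓ₀p
  intro ℓ hℓ hℓS hℓgood
  simp only [Finset.mem_union, Finset.mem_singleton, not_or] at hℓS
  exact hcong ℓ hℓ hℓgood (fun h => hℓS.1 (Nat.mem_primeFactors.mpr ⟨hℓ, h, hN.ne'⟩)) hℓS.2

/-- Change of integral model for `IsResiduallyModularOfLevel`, from frozen S29 alone: two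
integral models of the same elliptic curve over `ℚ` are residually modular of the same levels. -/
theorem isResiduallyModularOfLevel_transport (h29 : S29Statement)
    (E : WeierstrassCurve ℚ) (W₀ W : WeierstrassCurve ℤ) (hW₀ : W₀.IsIntegralModelOf E)
    (hW : W.IsIntegralModelOf E) (p : ℕ) (hpp : p.Prime) (N : ℕ)
    (h : W₀.IsResiduallyModularOfLevel p N) : W.IsResiduallyModularOfLevel p N := by
  obtain ⟨f, 𝔪, hf, h𝔪, hp, hcong⟩ := h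
  refine ⟨f, 𝔪, hf, h𝔪, hp, ?_⟩
  intro ℓ₀ hℓ₀ hgood hℓ₀N hℓ₀p
  have hN : N ≠ 0 := by
    rintro rfl
    exact hℓ₀N (dvd_zero _)
  have hEΔ : E.Δ ≠ 0 :=
    (disc_ne_zero_iff_of_isIntegralModelOf hW).mp (disc_ne_zero_of_isGoodPrimeFor hgood)
  refine congruence_transport_S29 h29 E hEΔ p hpp N f hf 𝔪 h𝔪 hp W₀ hW₀
    (N.primeFactors ∪ {p}) ?_ W hW ℓ₀ hℓ₀ hgood hℓ₀N hℓ₀p
  intro ℓ hℓ hℓS hℓgood
  simp only [Finset.mem_union, Finset.mem_singleton, not_or] at hℓS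
  exact hcong ℓ hℓ hℓgood (fun h => hℓS.1 (Nat.mem_primeFactors.mpr ⟨hℓ, h, hN⟩)) hℓS.2

end Fermat.Agent.Ribet.H764
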