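import Fermat.Agent.Ribet.H944.WallSpec
import Fermat.Prelude.Def_ModularCurve_X0ModL
import Fermat.Prelude.Def_CuspForm_IntegralStructure
import Fermat.Prelude.Def_CuspForm_HeckeAlgebra

/-!
# Row 38, WALL-p, leaf I3 = W-R3P ("forms from holomorphic differentials mod `p`")
  (sub-architect helper764; frozen interface, Props + proved glue)

Situation ((S3) of `H944.Wall.AtPFiltrationStatement`): `x ∈ 𝓕 ∖ 𝒮` is a new Hecke eigenclass of
`J₀(pM')[p]`, `x ↔ f` with `div f = p·D`.  On a component `C ≅ X₀(M')_k` of the special fibre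
(`k` = residue field at `A`, characteristic `p`, `p ∤ M'`) the reduction `h = red_V f` lies in
`F_k = modularFunctionFieldFullC k M' ⊆ k((q))` (reduction of `q`-expansions), has
`p ∣ ord_Q h` at EVERY place `Q` of `F_k` (slopes zero) and is not a constant times a `p`-th power
(`x ∉ 𝒮`), i.e. `θh ≠ 0` (`θ = q d/dq`).  So `g := θh / h ∈ k⟦q⟧` is the `q`-expansion of the
nonzero HOLOMORPHIC differential `dh/h = g·dq/q` of `X₀(M')_k`, and it is a `T_ℓ`-eigenvector with
eigenvalue `a_ℓ` (trace of `dlog` = `dlog` of the norm).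

**I3 (`R3PStatement`)**: then `a` is the eigensystem of a normalised eigenform of level `M'`
modulo a prime over `p` (`H944.Wall.Lowered`, branch `EigenAway`; R3S is NOT used).

Everything is stated on `q`-series, independent of the model language:

* `IsDlog h g`            : `g·h = θh` in `k((q))`;
* `IsEigenSeries M S a g` : `c_{nℓ}(g) + ℓ·c_{n/ℓ}(g) = a_ℓ·c_n(g)` for primes `ℓ ∤ M`, `ℓ ∉ S`
                            (weight-2 `T_ℓ` on `q`-expansions, `ModularForm.coeffHeckeT`);
* `redForms k M`          : the `k`-span in `k⟦q⟧` of the reductions of the `q`-expansions of the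
                            cusp forms of level `M` with integral `q`-expansion
                            (= mod-`p` cusp forms à la Serre);
* `FormsModP M p S a`     : FORMS interface in lattice terms: `f ∈ L ∖ pL`,
                            `T_ℓ f - a_ℓ f ∈ pL` off `S`  (`L = CuspForm.intLattice M 2`).

## Leaves
* `LiftStatement`  (L1, algebra, Deligne-Serre `Lib/Ribet/H584`): `FormsModP ⇒ EigenAway`.
* `DescStatement`  (L2, linear algebra, descent `k → 𝔽_p`): an eigen-series in `redForms k M`
                   gives `FormsModP`.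
* `LogDiffFormsStatement` (GEO, the geometric heart): `dlog h ∈ redForms k M`.  It splits into
  - `IncStatement`   (INC): reductions of integral forms are holomorphic differentials of `F_k`
                     (`q`-expansion principle; needs the good reduction of `X₀(M)` at `p`, Tower A);
  - `DimStatement`   (DIMK): holomorphic differentials of `F_k` have dimension `≤ dim S₂(Γ₀(M))`
                     (Riemann-Roch over `k` + `genus(F_k) ≤ genus(F_ℚ̄)` + S20/S24);
  - `RankStatement`  (RANK): `dim_k redForms k M = dim_ℂ S₂(Γ₀(M))` (S23 + saturation);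
  - `LogHolStatement`(LOGHOL): `dh/h` is holomorphic when `p ∣ div h` (local computation).
* PROVED here: `r3p_of : Lift → Desc → LogDiffForms → R3PStatement`.
  (`logDiffForms_of : Inc → Dim → Rank → LogHol → LogDiffForms` is in `I3Glue.lean`.)
-/

set_option autoImplicit false

open CuspForm ModularFormClass ModularCurve AlgebraicCurve

namespace Fermat.Agent.Ribet.H764.I3

open Fermat.Agent.Ribet.H944.Wall

/-! ## Vocabulary -/

/-- `h' = θ h`, `θ = q d/dq` on `k((q))`. -/
def IsTheta {k : Type} [Field k] (h h' : LaurentSeries k) : Prop :=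
  ∀ n : ℤ, h'.coeff n = (n : k) * h.coeff n

/-- `g = θh / h`: `g·dq/q` is the logarithmic differential `dh/h`. -/
def IsDlog {k : Type} [Field k] (h : LaurentSeries k) (g : PowerSeries k) : Prop :=
  IsTheta h (HahnSeries.ofPowerSeries ℤ k g * h)

/-- The weight-2 Hecke eigen-relations `T_ℓ g = a_ℓ g` on a `q`-series, for the primes `ℓ ∤ M`,
`ℓ ∉ S`. -/
def IsEigenSeries {k : Type} [Field k] (M : ℕ) (S : Finset ℕ) (a : ℕ → ℤ)
    (g : PowerSeries k) : Prop :=
  ∀ ℓ : ℕ, ℓ.Prime → ¬ ℓ ∣ M → ℓ ∉ S → ∀ n : ℕ,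
    PowerSeries.coeff (n * ℓ) g + (if ℓ ∣ n then (ℓ : k) * PowerSeries.coeff (n / ℓ) g else 0) =
      (a ℓ : k) * PowerSeries.coeff n g

/-- `g ∈ k⟦q⟧` is the reduction of the `q`-expansion of a cusp form of weight 2 and level `M` with
integral `q`-expansion. -/
def IsRedOfForm (k : Type) [Field k] (M : ℕ) (g : PowerSeries k) : Prop :=
  ∃ (f : CuspForm (CongruenceSubgroup.Gamma0 M) 2) (c : ℕ → ℤ),
    (∀ n, qCoeff f n = (c n : ℂ)) ∧ ∀ n, PowerSeries.coeff n g = (c n : k)

/-- Mod-`p` cusp forms of weight 2 and level `M` with coefficients in `k`. -/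
def redForms (k : Type) [Field k] (M : ℕ) : Submodule k (PowerSeries k) :=
  Submodule.span k {g | IsRedOfForm k M g}

/-- **FORMS interface.**  The eigensystem `a` (off `S`) is realised on a nonzero element of
`L / pL`, `L = intLattice M 2`. -/
def FormsModP (M p : ℕ) [NeZero M] (S : Finset ℕ) (a : ℕ → ℤ) : Prop :=
  ∃ f ∈ intLattice M 2, (∀ f' ∈ intLattice M 2, f ≠ p • f') ∧
    ∀ (ℓ : ℕ) (hℓ : ℓ.Prime) (hℓM : ¬ ℓ ∣ M), ℓ ∉ S →
      ∃ f' ∈ intLattice M 2, heckeTLin 2 hℓ hℓM f - a ℓ • f = p • f'

/-- `g·dq/q` is a holomorphic differential of `F = modularFunctionFieldFullC k M`: for every place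
`Q` and every uniformiser `t` at `Q`, `g = u·θt` with `u ∈ F` regular at `Q`
(i.e. `g·dq/q = u·dt`). -/
def IsHoloSeries (k : Type) [Field k] (M : ℕ) [NeZero M] (g : PowerSeries k) : Prop :=
  ∀ (Q : Place k (modularFunctionFieldFullC k M)) (t : modularFunctionFieldFullC k M),
    Q.ord t = 1 →
      ∃ (u : modularFunctionFieldFullC k M) (t' : LaurentSeries k),
        IsTheta (t : LaurentSeries k) t' ∧ u ∈ Q.toValuationSubring ∧
        HahnSeries.ofPowerSeries ℤ k g = (u : LaurentSeries k) * t'

/-! ## The statements -/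

/-- **I3 = W-R3P.**  A nonzero logarithmic holomorphic eigen-differential `dh/h` on `X₀(M)_k`
(`p ∣ div h`) gives the eigensystem at level `M`. -/
def R3PStatement : Prop :=
  ∀ (p M : ℕ) [NeZero M], p.Prime → ¬ p ∣ M →
    ∀ (k : Type) [Field k] [IsAlgClosed k] [CharP k p] (S : Finset ℕ) (a : ℕ → ℤ)
      (h : modularFunctionFieldFullC k M), h ≠ 0 →
      (∀ Q : Place k (modularFunctionFieldFullC k M), (p : ℤ) ∣ Q.ord h) →
      ∀ g : PowerSeries k, IsDlog (h : LaurentSeries k) g → g ≠ 0 → IsEigenSeries M S a g →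
        Lowered M p S a

/-- (L1) **LIFT**: Deligne-Serre lifting on the integral lattice. -/
def LiftStatement : Prop :=
  ∀ (p M : ℕ) [NeZero M], p.Prime → ∀ (S : Finset ℕ) (a : ℕ → ℤ),
    FormsModP M p S a → ∃ S' : Finset ℕ, S ⊆ S' ∧ EigenAway M p S' a

/-- (L2) **DESC**: a nonzero eigen-series in `redForms k M` (`char k = p`) gives an eigenvector
in `L / pL`. -/
def DescStatement : Prop :=
  ∀ (p M : ℕ) [NeZero M], p.Prime → ∀ (k : Type) [Field k] [CharP k p] (S : Finset ℕ)
    (a : ℕ → ℤ) (g : PowerSeries k), g ∈ redForms k M → g ≠ 0 → IsEigenSeries M S a g →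
      FormsModP M p S a

/-- (GEO) **the geometric heart**: logarithmic differentials with `p ∣ div h` on `X₀(M)_k`,
`p ∤ M`, are mod-`p` cusp forms. -/
def LogDiffFormsStatement : Prop :=
  ∀ (p M : ℕ) [NeZero M], p.Prime → ¬ p ∣ M →
    ∀ (k : Type) [Field k] [IsAlgClosed k] [CharP k p]
      (h : modularFunctionFieldFullC k M), h ≠ 0 →
      (∀ Q : Place k (modularFunctionFieldFullC k M), (p : ℤ) ∣ Q.ord h) →
      ∀ g : PowerSeries k, IsDlog (h : LaurentSeries k) g → g ∈ redForms k M

/-- (INC) reductions of integral cusp forms are holomorphic differentials of `X₀(M)_k`. -/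
def IncStatement : Prop :=
  ∀ (p M : ℕ) [NeZero M], p.Prime → ¬ p ∣ M →
    ∀ (k : Type) [Field k] [IsAlgClosed k] [CharP k p] (g : PowerSeries k),
      IsRedOfForm k M g → IsHoloSeries k M g

/-- (DIMK) a finite-dimensional space of holomorphic differentials of `X₀(M)_k` has dimension at
most `dim S₂(Γ₀(M))`. -/
def DimStatement : Prop :=
  ∀ (p M : ℕ) [NeZero M], p.Prime → ¬ p ∣ M →
    ∀ (k : Type) [Field k] [IsAlgClosed k] [CharP k p] (W : Submodule k (PowerSeries k)),
      Module.Finite k W → (∀ g ∈ W, IsHoloSeries k M g) →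
        Module.finrank k W ≤ Module.finrank ℂ (CuspForm (CongruenceSubgroup.Gamma0 M) 2)

/-- (RANK) `redForms k M` is finite-dimensional of dimension `dim S₂(Γ₀(M))`. -/
def RankStatement : Prop :=
  ∀ (p M : ℕ) [NeZero M], p.Prime →
    ∀ (k : Type) [Field k] [CharP k p],
      Module.Finite k (redForms k M) ∧
        Module.finrank k (redForms k M) =
          Module.finrank ℂ (CuspForm (CongruenceSubgroup.Gamma0 M) 2)

/-- (LOGHOL) `dh/h` is holomorphic when `p ∣ div h`. -/
def LogHolStatement : Prop :=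
  ∀ (p M : ℕ) [NeZero M], p.Prime → ¬ p ∣ M →
    ∀ (k : Type) [Field k] [IsAlgClosed k] [CharP k p]
      (h : modularFunctionFieldFullC k M), h ≠ 0 →
      (∀ Q : Place k (modularFunctionFieldFullC k M), (p : ℤ) ∣ Q.ord h) →
      ∀ g : PowerSeries k, IsDlog (h : LaurentSeries k) g → IsHoloSeries k M g

/-! ## Glue -/

/-- **I3 from its leaves.** -/
theorem r3p_of (hL : LiftStatement) (hD : DescStatement) (hG : LogDiffFormsStatement) :
    R3PStatement := by
  intro p M _ hp hpM k _ _ _ S a h h0 hdiv g hg hg0 heig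
  obtain ⟨S', hS', hE⟩ :=
    hL p M hp S a (hD p M hp k S a g (hG p M hp hpM k h h0 hdiv g hg) hg0 heig)
  exact ⟨S', hS', Or.inr hE⟩

end Fermat.Agent.Ribet.H764.I3
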