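import Fermat.Agent.Ribet.H764.I3Target
import Fermat.Agent.Ribet.H884.SlopeSpec
import Fermat.Agent.S18.H9.Res

/-!
# I3 = W-R3P at the residue fields `k = A/𝔪`, `p ≥ 5` (helper764)

The geometric leaves DIMK and INC use the good reduction of `X₀(M)` at `p` (Tower A), which is
available at `k = IsLocalRing.ResidueField A` (`A ⊆ ℚ̄` a valuation subring over `p`) and at good
levels (`p ≥ 5`).  This file restates I3 and its leaves there — enough for S44 — and plugs into
`H884.wallTargets5_of`.

* `IncAnStatement`   (INC-AN, characteristic 0): an integral cusp form is a holomorphic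
  differential of `F_ℚ̄ = modularFunctionFieldFullC ℚ̄ M` (`= modularFunctionFieldBar M`,
  `S18.H602.BaseChange`); it is `I3.IncAt M ℚ̄` verbatim.
* `IncRed5Statement` (INC-RED): the reduction of an `A`-integral holomorphic `q`-series is
  holomorphic.
* `Dim5Statement`, `LogHol5Statement`, `R3P5Statement` : `DimAt`, `LogHolAt`, `R3PAt` at `kRes A`.
* PROVED: `inc5_of`, `r3p5_of`, `dim5_of_all`, `logHol5_of_all`, `s3For_h884`,
  `wallTargets5_of_r3p5`.
-/

set_option autoImplicit false
set_option linter.style.haveILetI false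

open CuspForm ModularFormClass ModularCurve AlgebraicCurve

namespace Fermat.Agent.Ribet.H764.I3

open Fermat.Agent.Ribet.H944.Wall

/-- The residue field of `A`. -/
abbrev kRes (A : ValuationSubring (AlgebraicClosure ℚ)) : Type := IsLocalRing.ResidueField A

/-- The residue field of a valuation subring over `p` has characteristic `p`. -/
theorem charP_kRes (A : ValuationSubring (AlgebraicClosure ℚ)) {p : ℕ} (hp : p.Prime)
    (hA : A.LiesOverPrime p) : CharP (kRes A) p := by
  have hpm : ((p : ℕ) : A) ∈ IsLocalRing.maximalIdeal A := by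
    obtain ⟨ha, hm⟩ := (ValuationSubring.mem_nonunits_iff_exists_mem_maximalIdeal).mp hA
    have : (⟨(p : AlgebraicClosure ℚ), ha⟩ : A) = ((p : ℕ) : A) := by
      apply Subtype.ext; simp
    rwa [this] at hm
  have h0 : ((p : ℕ) : IsLocalRing.ResidueField A) = 0 := by
    have := (IsLocalRing.residue_eq_zero_iff ((p : ℕ) : A)).mpr hpm
    rwa [map_natCast] at this
  exact (CharP.charP_iff_prime_eq_zero hp).mpr h0

theorem isAlgClosed_kRes (A : ValuationSubring (AlgebraicClosure ℚ)) : IsAlgClosed (kRes A) :=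
  Fermat.Agent.S18.H9.resAlgClosed (AlgebraicClosure ℚ) A

/-! ## The statements -/

/-- **(INC-AN)**: an integral cusp form of weight 2 and level `M` is a holomorphic differential of
the function field of `X₀(M)` over `ℚ̄`. -/
def IncAnStatement : Prop :=
  ∀ (M : ℕ) [NeZero M], IncAt M (AlgebraicClosure ℚ)

/-- **(INC-RED)**, `p ≥ 5`: the reduction of a holomorphic `q`-series with integer coefficients
is holomorphic. -/
def IncRed5Statement : Prop :=
  ∀ (p M : ℕ) [NeZero M], p.Prime → 5 ≤ p → ¬ p ∣ M →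
    ∀ A : ValuationSubring (AlgebraicClosure ℚ), A.LiesOverPrime p →
    ∀ c : ℕ → ℤ,
      IsHoloSeries (AlgebraicClosure ℚ) M (PowerSeries.mk fun n => ((c n : ℤ) : AlgebraicClosure ℚ)) →
      IsHoloSeries (kRes A) M (PowerSeries.mk fun n => ((c n : ℤ) : kRes A))

/-- (INC) at the residue fields, `p ≥ 5`. -/
def Inc5Statement : Prop :=
  ∀ (p M : ℕ) [NeZero M], p.Prime → 5 ≤ p → ¬ p ∣ M →
    ∀ A : ValuationSubring (AlgebraicClosure ℚ), A.LiesOverPrime p → IncAt M (kRes A)

/-- (DIMK) at the residue fields, `p ≥ 5`. -/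
def Dim5Statement : Prop :=
  ∀ (p M : ℕ) [NeZero M], p.Prime → 5 ≤ p → ¬ p ∣ M →
    ∀ A : ValuationSubring (AlgebraicClosure ℚ), A.LiesOverPrime p → DimAt M (kRes A)

/-- (LOGHOL) at the residue fields, `p ≥ 5`. -/
def LogHol5Statement : Prop :=
  ∀ (p M : ℕ) [NeZero M], p.Prime → 5 ≤ p → ¬ p ∣ M →
    ∀ A : ValuationSubring (AlgebraicClosure ℚ), A.LiesOverPrime p → LogHolAt p M (kRes A)

/-- **I3 at the residue fields, `p ≥ 5`.** -/
def R3P5Statement : Prop :=
  ∀ (p M : ℕ) [NeZero M], p.Prime → 5 ≤ p → ¬ p ∣ M →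
    ∀ A : ValuationSubring (AlgebraicClosure ℚ), A.LiesOverPrime p → R3PAt p M (kRes A)

/-! ## Glue -/

/-- INC = INC-AN + INC-RED. -/
theorem inc5_of (hAn : IncAnStatement) (hRed : IncRed5Statement) : Inc5Statement := by
  intro p M _ hp h5 hpM A hA g hg
  obtain ⟨f, c, hfc, hgc⟩ := hg
  have hG : IsHoloSeries (AlgebraicClosure ℚ) M
      (PowerSeries.mk fun n => ((c n : ℤ) : AlgebraicClosure ℚ)) :=
    hAn M _ ⟨f, c, hfc, fun n => PowerSeries.coeff_mk _ _⟩
  have hg' : g = PowerSeries.mk fun n => ((c n : ℤ) : kRes A) := by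
    ext n
    rw [hgc n, PowerSeries.coeff_mk]
  rw [hg']
  exact hRed p M hp h5 hpM A hA c hG

/-- The `∀ k` form of DIMK gives the form at the residue fields. -/
theorem dim5_of_all (h : DimStatement) : Dim5Statement := by
  intro p M _ hp _ hpM A hA
  haveI := charP_kRes A hp hA
  haveI := isAlgClosed_kRes A
  exact h p M hp hpM (kRes A)

/-- The `∀ k` form of LOGHOL gives the form at the residue fields. -/
theorem logHol5_of_all (h : LogHolStatement) : LogHol5Statement := by
  intro p M _ hp _ hpM A hA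
  haveI := charP_kRes A hp hA
  haveI := isAlgClosed_kRes A
  exact h p M hp hpM (kRes A)

/-- **I3 at the residue fields from the geometric leaves.** -/
theorem r3p5_of (hI : Inc5Statement) (hD : Dim5Statement) (hH : LogHol5Statement) :
    R3P5Statement := by
  intro p M _ hp h5 hpM A hA
  haveI := charP_kRes A hp hA
  exact r3pAt_of_geo hp (hI p M hp h5 hpM A hA) (hD p M hp h5 hpM A hA) (hH p M hp h5 hpM A hA)

/-- **I3 at the residue fields from INC-AN, INC-RED, DIMK, LOGHOL.** -/
theorem r3p5_of_leaves (hAn : IncAnStatement) (hRed : IncRed5Statement) (hD : Dim5Statement)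
    (hH : LogHol5Statement) : R3P5Statement :=
  r3p5_of (inc5_of hAn hRed) hD hH

/-! ## Plug into the SLOPE + DLOG spec of helper884 -/

open Fermat.Agent.Ribet.H884 in
/-- **(S3)** for the subgroups of `H884/SlopeSpec.lean`, from DLOG (I2) and I3 at the residue
field. -/
theorem s3For_h884 (hD : DlogOutStatement) (h3 : R3P5Statement)
    (p M' : ℕ) [NeZero M'] [NeZero p] [NeZero (p * M')] (hp : p.Prime) (h5 : 5 ≤ p)
    (hpM : ¬ p ∣ M') (A : ValuationSubring (AlgebraicClosure ℚ)) (hA : A.LiesOverPrime p) :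
    S3For p M' (finPart p M' A) (splitPart p M' A) := by
  intro S a x hx hxS hnew heig
  have hp2 : p ≠ 2 := by omega
  obtain ⟨S', h, g, hSS', h0, hdiv, hdlog, hg0, heigs⟩ :=
    hD p M' hp hp2 hpM A hA S a x hx hxS hnew heig
  exact lowered_mono hSS' (h3 p M' hp h5 hpM A hA S' a h h0 hdiv g hdlog hg0 heigs)

open Fermat.Agent.Ribet.H884 in
/-- **The four targets for `p ≥ 5`** with I3 at the residue fields only. -/
theorem wallTargets5_of_r3p5 (h1 : S1Statement) (h2 : S2Statement) (hD : DlogOutStatement)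
    (h3 : R3P5Statement) (hE : EisSlopeStatement) : WallTargets5Statement := by
  intro p M' _ _ _ hp hp5 hpM A hA
  have hp2 : p ≠ 2 := by omega
  exact ⟨finPart p M' A, splitPart p M' A, h1 p M' hp hpM A hA, h2 p M' hp hp2 hpM A hA,
    s3For_h884 hD h3 p M' hp hp5 hpM A hA, s4For_of hE p M' hp hp5 hpM A hA⟩

end Fermat.Agent.Ribet.H764.I3
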