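import Fermat.Agent.Ribet.H764.I3Main

/-!
# I3 = W-R3P at a FIXED field `k` (helper764)

The leaves of `I3Spec.lean` for one field `k` of characteristic `p` (in the wall:
`k = IsLocalRing.ResidueField A`, `A` a valuation subring of `ℚ̄` over `p`), and the glue.
Owners of INC / DIMK / LOGHOL may prove the `…At` forms for their `k` only.

* `IncAt M k`, `DimAt M k`, `LogHolAt p M k`, `LogDiffFormsAt p M k`, `R3PAt p M k`;
* PROVED: `logDiffFormsAt_of`, `r3pAt_of_logDiffForms`, `r3pAt_of_geo`;
  the `∀ k` statements of `I3Spec.lean` are the conjunctions over all `k`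
  (`incAt_of`, … , `r3p_of_at`).
-/

set_option autoImplicit false
set_option linter.style.haveILetI false

open CuspForm ModularFormClass ModularCurve AlgebraicCurve

namespace Fermat.Agent.Ribet.H764.I3

open Fermat.Agent.Ribet.H944.Wall

/-- (INC) at `k`. -/
def IncAt (M : ℕ) [NeZero M] (k : Type) [Field k] : Prop :=
  ∀ g : PowerSeries k, IsRedOfForm k M g → IsHoloSeries k M g

/-- (DIMK) at `k`. -/
def DimAt (M : ℕ) [NeZero M] (k : Type) [Field k] : Prop :=
  ∀ W : Submodule k (PowerSeries k), Module.Finite k W → (∀ g ∈ W, IsHoloSeries k M g) →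
    Module.finrank k W ≤ Module.finrank ℂ (CuspForm (CongruenceSubgroup.Gamma0 M) 2)

/-- (LOGHOL) at `k`. -/
def LogHolAt (p M : ℕ) [NeZero M] (k : Type) [Field k] : Prop :=
  ∀ h : modularFunctionFieldFullC k M, h ≠ 0 →
    (∀ Q : Place k (modularFunctionFieldFullC k M), (p : ℤ) ∣ Q.ord h) →
    ∀ g : PowerSeries k, IsDlog (h : LaurentSeries k) g → IsHoloSeries k M g

/-- (GEO) at `k`. -/
def LogDiffFormsAt (p M : ℕ) [NeZero M] (k : Type) [Field k] : Prop :=
  ∀ h : modularFunctionFieldFullC k M, h ≠ 0 →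
    (∀ Q : Place k (modularFunctionFieldFullC k M), (p : ℤ) ∣ Q.ord h) →
    ∀ g : PowerSeries k, IsDlog (h : LaurentSeries k) g → g ∈ redForms k M

/-- **I3 at `k`.** -/
def R3PAt (p M : ℕ) [NeZero M] (k : Type) [Field k] : Prop :=
  ∀ (S : Finset ℕ) (a : ℕ → ℤ) (h : modularFunctionFieldFullC k M), h ≠ 0 →
    (∀ Q : Place k (modularFunctionFieldFullC k M), (p : ℤ) ∣ Q.ord h) →
    ∀ g : PowerSeries k, IsDlog (h : LaurentSeries k) g → g ≠ 0 → IsEigenSeries M S a g →
      Lowered M p S a

variable {p M : ℕ} [NeZero M] {k : Type} [Field k]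

/-- Glue at `k`: the geometric heart from INC, DIMK, LOGHOL (RANK is proved). -/
theorem logDiffFormsAt_of [CharP k p] (hp : p.Prime) (hI : IncAt M k) (hD : DimAt M k)
    (hH : LogHolAt p M k) : LogDiffFormsAt p M k := by
  intro h h0 hdiv g hg
  obtain ⟨hfin, hrank⟩ := rank_proved p M hp k
  haveI := hfin
  have hVH : redForms k M ≤ holoSeries k M :=
    Submodule.span_le.mpr fun x hx => hI x hx
  have hgH : g ∈ holoSeries k M := hH h h0 hdiv g hg
  set W : Submodule k (PowerSeries k) := redForms k M ⊔ Submodule.span k {g} with hW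
  have hWH : W ≤ holoSeries k M :=
    sup_le hVH (Submodule.span_le.mpr (Set.singleton_subset_iff.mpr hgH))
  haveI : Module.Finite k (Submodule.span k ({g} : Set (PowerSeries k))) :=
    Module.Finite.span_of_finite k (Set.finite_singleton g)
  haveI hWfin : Module.Finite k W := Submodule.finite_sup _ _
  have hdim : Module.finrank k W ≤ Module.finrank k (redForms k M) := by
    rw [hrank]
    exact hD W hWfin fun x hx => hWH hx
  have hVW : redForms k M ≤ W := le_sup_left
  have hEq : redForms k M = W := Submodule.eq_of_le_of_finrank_le hVW hdim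
  rw [hEq]
  exact (le_sup_right : Submodule.span k {g} ≤ W) (Submodule.mem_span_singleton_self g)

/-- I3 at `k` from the geometric heart at `k`. -/
theorem r3pAt_of_logDiffForms [CharP k p] (hp : p.Prime) (hG : LogDiffFormsAt p M k) :
    R3PAt p M k := by
  intro S a h h0 hdiv g hg hg0 heig
  obtain ⟨S', hS', hE⟩ :=
    lift_proved p M hp S a (desc_proved p M hp k S a g (hG h h0 hdiv g hg) hg0 heig)
  exact ⟨S', hS', Or.inr hE⟩

/-- **I3 at `k` from the three open geometric leaves at `k`.** -/
theorem r3pAt_of_geo [CharP k p] (hp : p.Prime) (hI : IncAt M k) (hD : DimAt M k)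
    (hH : LogHolAt p M k) : R3PAt p M k :=
  r3pAt_of_logDiffForms hp (logDiffFormsAt_of hp hI hD hH)

/-- The `∀ k` statement from the statements at each `k`. -/
theorem r3p_of_at
    (h : ∀ (p M : ℕ) [NeZero M], p.Prime → ¬ p ∣ M →
      ∀ (k : Type) [Field k] [IsAlgClosed k] [CharP k p], R3PAt p M k) : R3PStatement :=
  fun p M _ hp hpM k _ _ _ => h p M hp hpM k

end Fermat.Agent.Ribet.H764.I3
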