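import Fermat.Agent.Ribet.H764.TraceCore

/-!
# Row RIBET, pieces G2 (model transport) and R3' (almost-all ⇒ witness)  (helper764)

* `modelTransport_of : S42Statement → TraceFormulaStatement → ModelTransportStatement`
* `almostAllToWitness_of : S42Statement → TraceFormulaStatement → AlmostAllToWitnessStatement`

Both are immediate from `congruence_transport` (file `TraceCore.lean`), which uses the landed
exact Chebotarev theorem `Fermat.Agent.Lib.Cheb.chebotarev`.
-/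

set_option autoImplicit false

open WeierstrassCurve WeierstrassCurve.Affine WeierstrassCurve.Affine.Point
open CuspForm ModularFormClass

namespace Fermat.Agent.Ribet.H764

open Fermat.Agent.Ribet.Spec

/-- (G2) Model transport: a congruence witness for one integral model of the Frey curve is a
congruence witness for every integral model. -/
theorem modelTransport_of (h42 : S42Statement) (hTF : TraceFormulaStatement) :
    ModelTransportStatement := by
  intro P N hN hmod W hW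
  obtain ⟨f, W₀, 𝔪, hf, hW₀, h𝔪, hp, hcong⟩ := hmod
  refine ⟨f, 𝔪, hf, h𝔪, hp, ?_⟩
  intro ℓ₀ hℓ₀ hgood hℓ₀N hℓ₀p
  refine congruence_transport h42 hTF P N hN f hf 𝔪 h𝔪 hp W₀ hW₀ (N.primeFactors ∪ {P.p}) ?_
    W hW ℓ₀ hℓ₀ hgood hℓ₀N hℓ₀p
  intro ℓ hℓ hℓS hℓgood
  simp only [Finset.mem_union, Finset.mem_singleton, not_or] at hℓS
  exact hcong ℓ hℓ hℓgood (fun h => hℓS.1 (Nat.mem_primeFactors.mpr ⟨hℓ, h, hN.ne'⟩)) hℓS.2

/-- (R3') A congruence outside a finite set of primes is a congruence witness. -/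
theorem almostAllToWitness_of (h42 : S42Statement) (hTF : TraceFormulaStatement) :
    AlmostAllToWitnessStatement := by
  intro P M hM g W 𝔪 S hg hW h𝔪 hp hcong
  refine ⟨hg, hW, h𝔪, hp, ?_⟩
  intro ℓ₀ hℓ₀ hgood hℓ₀M hℓ₀p
  exact congruence_transport h42 hTF P M hM g hg 𝔪 h𝔪 hp W hW S
    (fun ℓ hℓ hℓS _ => hcong ℓ hℓ hℓS) W hW ℓ₀ hℓ₀ hgood hℓ₀M hℓ₀p

/-- Variant of (G2) producing a `ModularRepOfLevel` witness with a prescribed model. -/
theorem isCongruentWitness_transport (h42 : S42Statement) (hTF : TraceFormulaStatement)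
    (P : FreyPackage) (N : ℕ) (hN : 0 < N)
    (f : CuspForm (CongruenceSubgroup.Gamma0 N) 2) (W₀ W : WeierstrassCurve ℤ)
    (𝔪 : Ideal (integralClosure ℤ ℂ)) (h : P.IsCongruentWitness N f W₀ 𝔪)
    (hW : W.IsIntegralModelOf P.freyCurve) : P.IsCongruentWitness N f W 𝔪 := by
  obtain ⟨hf, hW₀, h𝔪, hp, hcong⟩ := h
  refine ⟨hf, hW, h𝔪, hp, ?_⟩
  intro ℓ₀ hℓ₀ hgood hℓ₀N hℓ₀p
  refine congruence_transport h42 hTF P N hN f hf 𝔪 h𝔪 hp W₀ hW₀ (N.primeFactors ∪ {P.p}) ?_
    W hW ℓ₀ hℓ₀ hgood hℓ₀N hℓ₀p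
  intro ℓ hℓ hℓS hℓgood
  simp only [Finset.mem_union, Finset.mem_singleton, not_or] at hℓS
  exact hcong ℓ hℓ hℓgood (fun h => hℓS.1 (Nat.mem_primeFactors.mpr ⟨hℓ, h, hN.ne'⟩)) hℓS.2

end Fermat.Agent.Ribet.H764
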