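import Fermat.Agent.Ribet.H764.I3Spec
import Fermat.Agent.S49.Glue
import Fermat.Prelude.Thm_CuspForm_mem_intLattice_of_mem_heckeAlgebra

/-!
# I3 leaf (L2) DESC (helper764): an eigen-series in `redForms k M` gives `FormsModP`

`k` any field of characteristic `p`.  Apply an `𝔽_p`-linear functional `φ : k → 𝔽_p` coefficientwise
(`φ (c_{n₀}(g)) ≠ 0`): the result is the reduction of an integral form `f₀ ∈ L`, `f₀ ∉ pL`, and
the eigen-relations (which have coefficients in `𝔽_p`) survive, so `T_ℓ f₀ - a_ℓ f₀ ∈ pL`.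
-/

set_option autoImplicit false
set_option linter.style.haveILetI false

open CuspForm ModularFormClass CongruenceSubgroup

namespace Fermat.Agent.Ribet.H764.I3

open Fermat.Agent.S49

variable {M : ℕ}

/-- Elements of the integral lattice have integral `q`-coefficients. -/
theorem int_of_mem_intLattice_h764 {f : CuspForm (Gamma0 M) 2} (hf : f ∈ intLattice M 2)
    (n : ℕ) : ∃ z : ℤ, qCoeff f n = (z : ℂ) := by
  induction hf using Submodule.span_induction with
  | mem x hx => exact hx n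
  | zero =>
    refine ⟨0, ?_⟩
    have h := glue_qCoeff_smul (N := M) 0 (0 : CuspForm (Gamma0 M) 2) n
    rw [zero_smul, zero_mul] at h
    rw [h, Int.cast_zero]
  | add x y _ _ hx hy =>
    obtain ⟨a, ha⟩ := hx
    obtain ⟨b, hb⟩ := hy
    exact ⟨a + b, by rw [glue_qCoeff_add, ha, hb, Int.cast_add]⟩
  | smul c x _ hx =>
    obtain ⟨a, ha⟩ := hx
    refine ⟨c * a, ?_⟩
    rw [← Int.cast_smul_eq_zsmul ℂ, glue_qCoeff_smul, ha, Int.cast_mul]

theorem mem_intLattice_of_int_h764 {f : CuspForm (Gamma0 M) 2}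
    (hf : ∀ n : ℕ, ∃ z : ℤ, qCoeff f n = (z : ℂ)) : f ∈ intLattice M 2 :=
  Submodule.subset_span hf

theorem qCoeff_zsmul_h764 (c : ℤ) (f : CuspForm (Gamma0 M) 2) (n : ℕ) :
    qCoeff ⇑(c • f) n = c * qCoeff ⇑f n := by
  rw [← Int.cast_smul_eq_zsmul ℂ, glue_qCoeff_smul]

theorem qCoeff_nsmul_h764 (c : ℕ) (f : CuspForm (Gamma0 M) 2) (n : ℕ) :
    qCoeff ⇑(c • f) n = c * qCoeff ⇑f n := by
  rw [← Nat.cast_smul_eq_nsmul ℂ, glue_qCoeff_smul]

/-- An integral form all of whose coefficients are divisible by `p` lies in `pL`. -/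
theorem exists_eq_nsmul_of_dvd_h764 {p : ℕ} (hp : p ≠ 0) (F : CuspForm (Gamma0 M) 2)
    (e : ℕ → ℤ) (he : ∀ n, qCoeff F n = (e n : ℂ)) (hdvd : ∀ n, (p : ℤ) ∣ e n) :
    ∃ f' ∈ intLattice M 2, F = p • f' := by
  have hpC : (p : ℂ) ≠ 0 := Nat.cast_ne_zero.mpr hp
  refine ⟨(p : ℂ)⁻¹ • F, mem_intLattice_of_int_h764 fun n => ?_, ?_⟩
  · obtain ⟨z, hz⟩ := hdvd n
    refine ⟨z, ?_⟩
    rw [glue_qCoeff_smul, he, hz]
    push_cast
    field_simp
  · rw [← Nat.cast_smul_eq_nsmul ℂ, smul_smul, mul_inv_cancel₀ hpC, one_smul]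

section Functional

variable {p : ℕ} [Fact p.Prime] {k : Type} [Field k] [CharP k p]

/-- Coefficientwise image of a series in `redForms k M` under an `𝔽_p`-linear functional is the
reduction of an integral form. -/
theorem exists_form_of_functional_h764 (g : PowerSeries k) (hg : g ∈ redForms k M) :
    letI := ZMod.algebra k p
    ∀ φ : k →ₗ[ZMod p] ZMod p, ∃ f ∈ intLattice M 2, ∃ m : ℕ → ℤ,
      (∀ n, qCoeff f n = (m n : ℂ)) ∧ ∀ n, ((m n : ℤ) : ZMod p) = φ (PowerSeries.coeff n g) := by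
  letI := ZMod.algebra k p
  induction hg using Submodule.span_induction with
  | mem x hx =>
    intro φ
    obtain ⟨f, c, hfc, hxc⟩ := hx
    refine ⟨((φ 1 : ZMod p).cast : ℤ) • f, ?_, fun n => ((φ 1 : ZMod p).cast : ℤ) * c n, ?_, ?_⟩
    · exact (intLattice M 2).smul_mem _ (mem_intLattice_of_int_h764 fun n => ⟨c n, hfc n⟩)
    · intro n
      rw [qCoeff_zsmul_h764, hfc, Int.cast_mul]
    · intro n
      rw [hxc n, Int.cast_mul, ZMod.intCast_zmod_cast]
      have h1 : ((c n : ℤ) : k) = ((c n : ℤ) : ZMod p) • (1 : k) := by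
        rw [Algebra.smul_def, mul_one, map_intCast]
      rw [h1, map_smul, smul_eq_mul, mul_comm]
  | zero =>
    intro φ
    refine ⟨0, (intLattice M 2).zero_mem, fun _ => 0, fun n => ?_, fun n => ?_⟩
    · have h := glue_qCoeff_smul (N := M) 0 (0 : CuspForm (Gamma0 M) 2) n
      rw [zero_smul, zero_mul] at h
      rw [h, Int.cast_zero]
    · rw [map_zero, map_zero, Int.cast_zero]
  | add x y _ _ hx hy =>
    intro φ
    obtain ⟨f₁, hf₁, m₁, h₁, h₁'⟩ := hx φ
    obtain ⟨f₂, hf₂, m₂, h₂, h₂'⟩ := hy φ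
    refine ⟨f₁ + f₂, (intLattice M 2).add_mem hf₁ hf₂, fun n => m₁ n + m₂ n, fun n => ?_,
      fun n => ?_⟩
    · rw [glue_qCoeff_add, h₁, h₂, Int.cast_add]
    · rw [map_add, map_add, Int.cast_add, h₁', h₂']
  | smul c x _ hx =>
    intro φ
    obtain ⟨f, hf, m, h, h'⟩ := hx (φ.comp (LinearMap.mulLeft (ZMod p) c))
    refine ⟨f, hf, m, h, fun n => ?_⟩
    rw [h' n]
    simp [LinearMap.mulLeft_apply]

end Functional

/-- **(L2) DESC.** -/
theorem desc_proved : DescStatement := by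
  intro p M _ hp k _ _ S a g hg hg0 heig
  haveI : Fact p.Prime := ⟨hp⟩
  letI := ZMod.algebra k p
  -- a nonzero coefficient and a functional detecting it
  obtain ⟨n₀, hn₀⟩ : ∃ n₀, PowerSeries.coeff n₀ g ≠ 0 := by
    by_contra hcon
    push Not at hcon
    exact hg0 (PowerSeries.ext fun n => by rw [hcon n, map_zero])
  obtain ⟨φ, hφ⟩ : ∃ φ : Module.Dual (ZMod p) k, φ (PowerSeries.coeff n₀ g) ≠ 0 := by
    by_contra hcon
    push Not at hcon
    exact hn₀ ((Module.forall_dual_apply_eq_zero_iff (ZMod p) _).mp hcon)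
  obtain ⟨f₀, hf₀, m, hm, hmφ⟩ := exists_form_of_functional_h764 (p := p) g hg φ
  refine ⟨f₀, hf₀, ?_, ?_⟩
  · -- `f₀ ∉ pL`
    intro f' hf' e
    obtain ⟨z, hz⟩ := int_of_mem_intLattice_h764 hf' n₀
    have h1 : (m n₀ : ℂ) = ((p : ℤ) * z : ℤ) := by
      rw [← hm n₀, e, qCoeff_nsmul_h764, hz]
      push_cast
      rfl
    have h2 : m n₀ = (p : ℤ) * z := by exact_mod_cast h1
    apply hφ
    rw [← hmφ n₀, h2]
    simp
  · -- the eigen-relations
    intro ℓ hℓ hℓM hℓS
    apply exists_eq_nsmul_of_dvd_h764 hp.ne_zero _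
      (fun n => m (n * ℓ) + (if ℓ ∣ n then (ℓ : ℤ) * m (n / ℓ) else 0) - a ℓ * m n)
    · intro n
      rw [glue_qCoeff_sub, glue_qCoeff_heckeTLin, qCoeff_zsmul_h764]
      simp only [hm]
      split_ifs with hd
      · push_cast
        rfl
      · push_cast
        rfl
    · intro n
      rw [← ZMod.intCast_zmod_eq_zero_iff_dvd]
      have hrel := heig ℓ hℓ hℓM hℓS n
      have hk : ∀ (z : ℤ) (x : k), φ ((z : k) * x) = (z : ZMod p) * φ x := by
        intro z x
        have h1 : (z : k) * x = (z : ZMod p) • x := by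
          rw [Algebra.smul_def, map_intCast]
        rw [h1, map_smul, smul_eq_mul]
      have h3 := congrArg φ hrel
      rw [map_add] at h3
      have h4 : φ ((a ℓ : k) * PowerSeries.coeff n g) = (a ℓ : ZMod p) * (m n : ZMod p) := by
        rw [hk, hmφ]
      rw [h4, ← hmφ] at h3
      push_cast
      split_ifs at h3 ⊢ with hd
      · have h5 : φ ((ℓ : k) * PowerSeries.coeff (n / ℓ) g) =
            (ℓ : ZMod p) * (m (n / ℓ) : ZMod p) := by
          have := hk (ℓ : ℤ) (PowerSeries.coeff (n / ℓ) g)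
          rw [Int.cast_natCast, Int.cast_natCast] at this
          rw [this, hmφ]
        rw [h5] at h3
        rw [h3]
        ring
      · rw [map_zero] at h3
        rw [h3]
        ring

end Fermat.Agent.Ribet.H764.I3
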