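import Fermat.Agent.Ribet.H764.I3Res
import Fermat.Agent.Ribet.H751.LogHol

/-!
# I3 = W-R3P: integration of the landed leaves (integrator helper764)

Status of the leaves of I3 (`I3Spec.lean`, `I3Res.lean`):

| leaf | statement | status |
|---|---|---|
| LIFT   | `LiftStatement`    | PROVED `lift_proved` (helper764) |
| DESC   | `DescStatement`    | PROVED `desc_proved` (helper764) |
| RANK   | `RankStatement`    | PROVED `rank_proved` (helper764) |
| LOGHOL | `LogHolStatement`  | PROVED `H751.logHol` (helper751) |
| INC-AN | `IncAnStatement`   | open |
| INC-RED| `IncRed5Statement` | open |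
| DIMK   | `Dim5Statement`    | open |

Hence `r3p5_of_open : IncAn → IncRed5 → Dim5 → R3P5Statement` and
`wallTargets5_of_open`.
-/

set_option autoImplicit false

namespace Fermat.Agent.Ribet.H764.I3

open Fermat.Agent.Ribet.H944.Wall

/-- LOGHOL at the residue fields (helper751). -/
theorem logHol5_proved : LogHol5Statement :=
  logHol5_of_all Fermat.Agent.Ribet.H751.logHol

/-- **I3 at the residue fields (`p ≥ 5`) from the three leaves still open.** -/
theorem r3p5_of_open (hAn : IncAnStatement) (hRed : IncRed5Statement) (hD : Dim5Statement) :
    R3P5Statement :=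
  r3p5_of_leaves hAn hRed hD logHol5_proved

open Fermat.Agent.Ribet.H884 in
/-- **The four targets for `p ≥ 5`** from the leaves still open of I3 and the statements of the
other sub-architects. -/
theorem wallTargets5_of_open (h1 : S1Statement) (h2 : S2Statement) (hDl : DlogOutStatement)
    (hAn : IncAnStatement) (hRed : IncRed5Statement) (hD : Dim5Statement)
    (hE : EisSlopeStatement) : WallTargets5Statement :=
  wallTargets5_of_r3p5 h1 h2 hDl (r3p5_of_open hAn hRed hD) hE

end Fermat.Agent.Ribet.H764.I3
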