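import Fermat.Agent.Ribet.H764.I3Spec

/-!
# I3 glue (helper764): `Inc + Dim + Rank + LogHol ⇒ LogDiffForms`

Holomorphic `q`-series form a `k`-subspace `holoSeries k M` of `k⟦q⟧`; it contains `redForms k M`
(INC), has dimension `≤ dim S₂` on finite-dimensional subspaces (DIMK), and
`dim redForms = dim S₂` (RANK): so every holomorphic series, in particular `dh/h` (LOGHOL), lies
in `redForms k M`.
-/

set_option autoImplicit false
set_option linter.style.haveILetI false

open CuspForm ModularFormClass ModularCurve AlgebraicCurve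

namespace Fermat.Agent.Ribet.H764.I3

section Holo

variable {k : Type} [Field k] {M : ℕ} [NeZero M]

theorem isTheta_unique {h h₁ h₂ : LaurentSeries k} (e₁ : IsTheta h h₁) (e₂ : IsTheta h h₂) :
    h₁ = h₂ :=
  HahnSeries.ext (funext fun n => by rw [e₁ n, e₂ n])

theorem isHoloSeries_zero : IsHoloSeries k M (0 : PowerSeries k) := by
  intro Q t _
  refine ⟨0, HahnSeries.mk (fun n => (n : k) * (t : LaurentSeries k).coeff n) ?_, fun n => rfl,
    Q.toValuationSubring.zero_mem, ?_⟩
  · refine (t : LaurentSeries k).isPWO_support.mono ?_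
    intro n hn
    rw [Function.mem_support] at hn
    rw [HahnSeries.mem_support]
    intro h0
    apply hn
    rw [h0, mul_zero]
  · rw [map_zero, ZeroMemClass.coe_zero, zero_mul]

theorem isHoloSeries_add {g₁ g₂ : PowerSeries k} (h₁ : IsHoloSeries k M g₁)
    (h₂ : IsHoloSeries k M g₂) : IsHoloSeries k M (g₁ + g₂) := by
  intro Q t ht
  obtain ⟨u₁, t₁, hθ₁, hu₁, e₁⟩ := h₁ Q t ht
  obtain ⟨u₂, t₂, hθ₂, hu₂, e₂⟩ := h₂ Q t ht
  have ht12 : t₂ = t₁ := isTheta_unique hθ₂ hθ₁
  refine ⟨u₁ + u₂, t₁, hθ₁, Q.toValuationSubring.add_mem _ _ hu₁ hu₂, ?_⟩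
  rw [map_add, e₁, e₂, ht12, AddMemClass.coe_add, add_mul]

theorem isHoloSeries_smul (c : k) {g : PowerSeries k} (h : IsHoloSeries k M g) :
    IsHoloSeries k M (c • g) := by
  intro Q t ht
  obtain ⟨u, t', hθ, hu, e⟩ := h Q t ht
  refine ⟨algebraMap k (modularFunctionFieldFullC k M) c * u, t', hθ,
    Q.toValuationSubring.mul_mem _ _ (Q.algebraMap_mem' c) hu, ?_⟩
  rw [PowerSeries.smul_eq_C_mul, map_mul, HahnSeries.ofPowerSeries_C, e, MulMemClass.coe_mul,
    IntermediateField.coe_algebraMap_apply, mul_assoc]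
  congr 1
  exact (LaurentSeries.algebraMap_apply k c).symm

/-- The `k`-subspace of holomorphic `q`-series. -/
def holoSeries (k : Type) [Field k] (M : ℕ) [NeZero M] : Submodule k (PowerSeries k) where
  carrier := {g | IsHoloSeries k M g}
  zero_mem' := isHoloSeries_zero
  add_mem' := isHoloSeries_add
  smul_mem' := isHoloSeries_smul

theorem mem_holoSeries {g : PowerSeries k} : g ∈ holoSeries k M ↔ IsHoloSeries k M g :=
  Iff.rfl

end Holo

/-- **Glue**: the geometric heart from its four leaves. -/
theorem logDiffForms_of (hI : IncStatement) (hD : DimStatement) (hR : RankStatement)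
    (hH : LogHolStatement) : LogDiffFormsStatement := by
  intro p M _ hp hpM k _ _ _ h h0 hdiv g hg
  obtain ⟨hfin, hrank⟩ := hR p M hp k
  haveI := hfin
  have hVH : redForms k M ≤ holoSeries k M :=
    Submodule.span_le.mpr fun x hx => hI p M hp hpM k x hx
  have hgH : g ∈ holoSeries k M := hH p M hp hpM k h h0 hdiv g hg
  set W : Submodule k (PowerSeries k) := redForms k M ⊔ Submodule.span k {g} with hW
  have hWH : W ≤ holoSeries k M :=
    sup_le hVH (Submodule.span_le.mpr (Set.singleton_subset_iff.mpr hgH))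
  haveI : Module.Finite k (Submodule.span k ({g} : Set (PowerSeries k))) :=
    Module.Finite.span_of_finite k (Set.finite_singleton g)
  haveI hWfin : Module.Finite k W := Submodule.finite_sup _ _
  have hdim : Module.finrank k W ≤ Module.finrank k (redForms k M) := by
    rw [hrank]
    exact hD p M hp hpM k W hWfin fun x hx => hWH hx
  have hVW : redForms k M ≤ W := le_sup_left
  have hEq : redForms k M = W := Submodule.eq_of_le_of_finrank_le hVW hdim
  rw [hEq]
  exact (le_sup_right : Submodule.span k {g} ≤ W) (Submodule.mem_span_singleton_self g)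

end Fermat.Agent.Ribet.H764.I3
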