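import Fermat.Agent.Ribet.H764.I3Spec
import Fermat.Agent.Lib.Ribet.H584.DeligneSerre
import Fermat.Prelude.Thm_CuspForm_mem_intLattice_of_mem_heckeAlgebra

/-!
# I3 leaf (L1) LIFT (helper764): `FormsModP ⇒ EigenAway`

A nonzero Hecke eigenvector of `L / pL` (`L = intLattice M 2`) gives a normalised eigenform of
level `M` congruent to the eigensystem: the ideal `(p, T_ℓ - a_ℓ)` of the Hecke algebra is proper
(it maps `f` into `pL`), and Deligne-Serre lifting (`Lib/Ribet/H584`) applies to a maximal ideal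
containing it.
-/

set_option autoImplicit false
set_option linter.style.haveILetI false

open CuspForm ModularFormClass CongruenceSubgroup

namespace Fermat.Agent.Ribet.H764.I3

open Fermat.Agent.Ribet.H944.Wall

/-- **(L1) LIFT.** -/
theorem lift_proved : LiftStatement := by
  classical
  intro p M _ hp S a hF
  obtain ⟨f₀, hf₀L, hf₀p, heig⟩ := hF
  haveI : NeZero p := ⟨hp.ne_zero⟩
  -- the excluded set
  set S' : Set ℕ := {ℓ | ℓ ∈ S ∨ ℓ ∣ M} with hS'def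
  -- the ideal
  set gens : Set (heckeAlgebra M 2 S') :=
    insert ((p : ℕ) : heckeAlgebra M 2 S')
      {t | ∃ (ℓ : ℕ) (hℓ : ℓ.Prime) (hℓM : ¬ ℓ ∣ M) (hℓS : ℓ ∉ S'),
        t = heckeAlgebra.T hℓ hℓM hℓS - ((a ℓ : ℤ) : heckeAlgebra M 2 S')} with hgens
  have hkey : ∀ t ∈ Ideal.span gens, ∃ f' ∈ intLattice M 2,
      (t : Module.End ℂ (CuspForm (Gamma0 M) 2)) f₀ = p • f' := by
    intro t ht
    induction ht using Submodule.span_induction with
    | mem x hx =>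
      rcases hx with rfl | ⟨ℓ, hℓ, hℓM, hℓS, rfl⟩
      · refine ⟨f₀, hf₀L, ?_⟩
        show ((heckeAlgebra M 2 S').val ((p : ℕ) : heckeAlgebra M 2 S')) f₀ = p • f₀
        rw [map_natCast, Module.End.natCast_apply]
      · have hℓS0 : ℓ ∉ S := fun h => hℓS (Or.inl h)
        obtain ⟨f', hf', e⟩ := heig ℓ hℓ hℓM hℓS0
        refine ⟨f', hf', ?_⟩
        have hcoe : ((heckeAlgebra.T hℓ hℓM hℓS - ((a ℓ : ℤ) : heckeAlgebra M 2 S') :
            heckeAlgebra M 2 S') : Module.End ℂ (CuspForm (Gamma0 M) 2)) f₀ =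
            heckeTLin 2 hℓ hℓM f₀ - (a ℓ : ℤ) • f₀ := by
          show ((heckeAlgebra M 2 S').val (heckeAlgebra.T hℓ hℓM hℓS -
            ((a ℓ : ℤ) : heckeAlgebra M 2 S'))) f₀ = _
          rw [map_sub, map_intCast, LinearMap.sub_apply, Module.End.intCast_apply]
          rfl
        rw [hcoe]
        exact e
    | zero =>
      refine ⟨0, (intLattice M 2).zero_mem, ?_⟩
      simp
    | add x y _ _ hx hy =>
      obtain ⟨f₁, hf₁, e₁⟩ := hx
      obtain ⟨f₂, hf₂, e₂⟩ := hy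
      refine ⟨f₁ + f₂, (intLattice M 2).add_mem hf₁ hf₂, ?_⟩
      rw [Subalgebra.coe_add, LinearMap.add_apply, e₁, e₂, smul_add]
    | smul b x _ hx =>
      obtain ⟨f₁, hf₁, e₁⟩ := hx
      refine ⟨(b : Module.End ℂ (CuspForm (Gamma0 M) 2)) f₁,
        CuspForm.mem_intLattice_of_mem_heckeAlgebra (by norm_num) b.2 hf₁, ?_⟩
      rw [smul_eq_mul, Subalgebra.coe_mul, Module.End.mul_apply, e₁, map_nsmul]
  -- the ideal is proper
  have hne : Ideal.span gens ≠ ⊤ := by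
    intro htop
    obtain ⟨f', hf', e⟩ := hkey 1 (htop ▸ Submodule.mem_top)
    rw [Subalgebra.coe_one, Module.End.one_apply] at e
    exact hf₀p f' hf' e
  obtain ⟨𝔫, h𝔫max, h𝔫le⟩ := Ideal.exists_le_maximal _ hne
  letI : Field (heckeAlgebra M 2 S' ⧸ 𝔫) := Ideal.Quotient.field 𝔫
  have hpk : ((p : ℕ) : heckeAlgebra M 2 S' ⧸ 𝔫) = 0 := by
    have h1 : ((p : ℕ) : heckeAlgebra M 2 S') ∈ 𝔫 :=
      h𝔫le (Ideal.subset_span (Set.mem_insert _ _))
    have h2 := Ideal.Quotient.eq_zero_iff_mem.mpr h1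
    rwa [map_natCast] at h2
  haveI : CharP (heckeAlgebra M 2 S' ⧸ 𝔫) p := (CharP.charP_iff_prime_eq_zero hp).mpr hpk
  obtain ⟨g, 𝔪, hg, h𝔪, hp𝔪, hcongr⟩ :=
    Fermat.Agent.Lib.Ribet.H584.exists_eigenform_congr_of_ringHom S' p
      (Ideal.Quotient.mk 𝔫) a (fun ℓ hℓ hℓM hℓS => by
        have h1 : heckeAlgebra.T hℓ hℓM hℓS - ((a ℓ : ℤ) : heckeAlgebra M 2 S') ∈ 𝔫 :=
          h𝔫le (Ideal.subset_span (Set.mem_insert_of_mem _ ⟨ℓ, hℓ, hℓM, hℓS, rfl⟩))
        have h2 := Ideal.Quotient.eq_zero_iff_mem.mpr h1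
        rw [map_sub, map_intCast, sub_eq_zero] at h2
        exact h2)
  refine ⟨S ∪ M.primeFactors, Finset.subset_union_left, g, 𝔪, hg, h𝔪, hp𝔪, ?_⟩
  intro ℓ hℓ hℓS
  rw [Finset.mem_union, not_or] at hℓS
  have hℓM : ¬ ℓ ∣ M := fun hd =>
    hℓS.2 (Nat.mem_primeFactors.mpr ⟨hℓ, hd, NeZero.ne M⟩)
  refine hcongr ℓ hℓ hℓM ?_
  rintro (h | h)
  · exact hℓS.1 h
  · exact hℓM h

end Fermat.Agent.Ribet.H764.I3
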