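import Fermat.Agent.Ribet.H764.I3Desc
import Fermat.Agent.S23
import Fermat.Prelude.Def_CuspForm_HeckeLocal

/-!
# I3 leaf RANK (helper764): `dim_k redForms k M = dim_ℂ S₂(Γ₀(M))`

`L = intLattice M 2` is free of finite rank (Prelude); a `ℤ`-basis of `L` is a `ℂ`-basis of
`S₂(Γ₀(M))` (S23 + `q`-expansion injective + functional descent `ℂ → ℚ`), and its reductions are a
`k`-basis of `redForms k M` (saturation of `L` + functional descent `k → 𝔽_p`).
-/

set_option autoImplicit false
set_option linter.style.haveILetI false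
set_option linter.unusedSectionVars false

open CuspForm ModularFormClass CongruenceSubgroup

namespace Fermat.Agent.Ribet.H764.I3

open Fermat.Agent.S49

variable {M : ℕ}

/-- The integral `q`-coefficients of an element of the lattice, as a `ℤ`-linear map. -/
noncomputable def coeffZLin (M : ℕ) : ↥(intLattice M 2) →ₗ[ℤ] (ℕ → ℤ) where
  toFun f n := (int_of_mem_intLattice_h764 f.2 n).choose
  map_add' f g := by
    funext n
    apply Int.cast_injective (α := ℂ)
    rw [Pi.add_apply, Int.cast_add, ← (int_of_mem_intLattice_h764 f.2 n).choose_spec,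
      ← (int_of_mem_intLattice_h764 g.2 n).choose_spec,
      ← (int_of_mem_intLattice_h764 (f + g).2 n).choose_spec]
    exact glue_qCoeff_add _ _ n
  map_smul' c f := by
    funext n
    apply Int.cast_injective (α := ℂ)
    rw [RingHom.id_apply, Pi.smul_apply, smul_eq_mul, Int.cast_mul,
      ← (int_of_mem_intLattice_h764 f.2 n).choose_spec,
      ← (int_of_mem_intLattice_h764 (c • f).2 n).choose_spec]
    exact qCoeff_zsmul_h764 c _ n

theorem coeffZLin_spec (f : ↥(intLattice M 2)) (n : ℕ) :
    qCoeff (f : CuspForm (Gamma0 M) 2) n = (coeffZLin M f n : ℂ) :=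
  (int_of_mem_intLattice_h764 f.2 n).choose_spec

/-- The coefficient map is injective. -/
theorem coeffZLin_injective : Function.Injective (coeffZLin M) := by
  rw [← LinearMap.ker_eq_bot, LinearMap.ker_eq_bot']
  intro f hf
  apply Subtype.ext
  rw [ZeroMemClass.coe_zero]
  apply glue_eq_zero_of_qCoeff
  intro n
  rw [coeffZLin_spec, hf, Pi.zero_apply, Int.cast_zero]

/-- Saturation: an element of `L` with all coefficients divisible by `p` lies in `pL`. -/
theorem exists_eq_nsmul_of_dvd_coeffZLin {p : ℕ} (hp : p ≠ 0) (F : ↥(intLattice M 2))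
    (hdvd : ∀ n, (p : ℤ) ∣ coeffZLin M F n) : ∃ f' : ↥(intLattice M 2), F = p • f' := by
  obtain ⟨f', hf', e⟩ := exists_eq_nsmul_of_dvd_h764 hp (F : CuspForm (Gamma0 M) 2)
    (coeffZLin M F) (coeffZLin_spec F) hdvd
  exact ⟨⟨f', hf'⟩, Subtype.ext e⟩

/-- Reduction of the `q`-expansion, as a `ℤ`-linear map `L → k⟦q⟧`. -/
noncomputable def redLin (k : Type) [Field k] (M : ℕ) :
    ↥(intLattice M 2) →ₗ[ℤ] PowerSeries k where
  toFun f := PowerSeries.mk fun n => ((coeffZLin M f n : ℤ) : k)
  map_add' f g := by
    ext n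
    simp [PowerSeries.coeff_mk]
  map_smul' c f := by
    ext n
    rw [PowerSeries.coeff_mk, map_zsmul, Pi.smul_apply, smul_eq_mul, Int.cast_mul,
      RingHom.id_apply, ← Int.cast_smul_eq_zsmul k c, PowerSeries.coeff_smul,
      PowerSeries.coeff_mk, smul_eq_mul]

theorem coeff_redLin (k : Type) [Field k] (f : ↥(intLattice M 2)) (n : ℕ) :
    PowerSeries.coeff n (redLin k M f) = ((coeffZLin M f n : ℤ) : k) := by
  show PowerSeries.coeff n (PowerSeries.mk fun n => ((coeffZLin M f n : ℤ) : k)) = _
  exact PowerSeries.coeff_mk _ _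

theorem isRedOfForm_iff (k : Type) [Field k] (g : PowerSeries k) :
    IsRedOfForm k M g ↔ ∃ f : ↥(intLattice M 2), redLin k M f = g := by
  constructor
  · rintro ⟨f, c, hfc, hg⟩
    have hf : f ∈ intLattice M 2 := mem_intLattice_of_int_h764 fun n => ⟨c n, hfc n⟩
    refine ⟨⟨f, hf⟩, ?_⟩
    ext n
    rw [coeff_redLin, hg]
    congr 1
    apply Int.cast_injective (α := ℂ)
    rw [← coeffZLin_spec, ← hfc]
  · rintro ⟨f, rfl⟩
    exact ⟨f, coeffZLin M f, coeffZLin_spec f, coeff_redLin k f⟩

theorem redForms_eq_span_range (k : Type) [Field k] :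
    redForms k M = Submodule.span k (Set.range (redLin k M)) := by
  unfold redForms
  congr 1
  ext g
  rw [Set.mem_ofPred_eq, isRedOfForm_iff]
  rfl

section Basis

variable [NeZero M]

/-- The index type of a `ℤ`-basis of `L`. -/
abbrev LatIdx (M : ℕ) [NeZero M] : Type :=
  letI := intLattice.moduleFree M
  Module.Free.ChooseBasisIndex ℤ ↥(intLattice M 2)

/-- A `ℤ`-basis of `L`. -/
noncomputable def latBasis (M : ℕ) [NeZero M] : Module.Basis (LatIdx M) ℤ ↥(intLattice M 2) :=
  letI := intLattice.moduleFree M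
  Module.Free.chooseBasis ℤ ↥(intLattice M 2)

noncomputable instance latIdxFintype : Fintype (LatIdx M) :=
  letI := intLattice.moduleFree M
  letI := intLattice.moduleFinite M
  Module.Free.ChooseBasisIndex.fintype ℤ ↥(intLattice M 2)

/-- The reductions of a basis span `redForms`. -/
theorem redForms_eq_span_basis (k : Type) [Field k] :
    redForms k M = Submodule.span k (Set.range fun i => redLin k M (latBasis M i)) := by
  rw [redForms_eq_span_range]
  apply le_antisymm
  · rw [Submodule.span_le]
    rintro _ ⟨f, rfl⟩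
    rw [← (latBasis M).sum_repr f, map_sum]
    refine Submodule.sum_mem _ fun i _ => ?_
    rw [map_zsmul, ← Int.cast_smul_eq_zsmul k]
    exact Submodule.smul_mem _ _ (Submodule.subset_span ⟨i, rfl⟩)
  · apply Submodule.span_mono
    rintro _ ⟨i, rfl⟩
    exact ⟨_, rfl⟩

/-- The reductions of a basis are linearly independent (`char k = p`). -/
theorem linearIndependent_redLin_basis {p : ℕ} (hp : p.Prime) (k : Type) [Field k]
    [CharP k p] : LinearIndependent k fun i => redLin k M (latBasis M i) := by
  classical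
  haveI : Fact p.Prime := ⟨hp⟩
  letI := ZMod.algebra k p
  rw [Fintype.linearIndependent_iff]
  intro c hc i
  rw [← Module.forall_dual_apply_eq_zero_iff (ZMod p)]
  intro φ
  -- the integral combination
  set z : LatIdx M → ℤ := fun j => ((φ (c j) : ZMod p).cast : ℤ) with hz
  set F : ↥(intLattice M 2) := ∑ j, z j • latBasis M j with hF
  have hk : ∀ (w : ℤ) (x : k), φ (x * (w : k)) = φ x * (w : ZMod p) := by
    intro w x
    have h1 : x * (w : k) = (w : ZMod p) • x := by
      rw [Algebra.smul_def, map_intCast, mul_comm]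
    rw [h1, map_smul, smul_eq_mul, mul_comm]
  have hdvd : ∀ n, (p : ℤ) ∣ coeffZLin M F n := by
    intro n
    rw [← ZMod.intCast_zmod_eq_zero_iff_dvd]
    have h1 : coeffZLin M F n = ∑ j, z j * coeffZLin M (latBasis M j) n := by
      rw [hF, map_sum, Finset.sum_apply]
      refine Finset.sum_congr rfl fun j _ => ?_
      rw [map_zsmul, Pi.smul_apply, smul_eq_mul]
    have h2 := congrArg (fun s => φ (PowerSeries.coeff n s)) hc
    simp only [map_sum, map_zero, PowerSeries.coeff_smul, smul_eq_mul] at h2
    rw [h1]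
    push_cast
    rw [← h2]
    refine Finset.sum_congr rfl fun j _ => ?_
    rw [coeff_redLin, hk, hz, ZMod.intCast_zmod_cast]
  obtain ⟨f', hf'⟩ := exists_eq_nsmul_of_dvd_coeffZLin hp.ne_zero F hdvd
  have h3 : (latBasis M).repr F i = z i := by
    rw [hF]
    exact congrFun ((latBasis M).repr_sum_self z) i
  have h4 : (latBasis M).repr F i = p * (latBasis M).repr f' i := by
    rw [hf', map_nsmul, Finsupp.smul_apply, nsmul_eq_mul]
  have h5 : ((z i : ℤ) : ZMod p) = 0 := by
    rw [← h3, h4]
    simp
  rwa [hz, ZMod.intCast_zmod_cast] at h5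

/-- The basis of `L` spans `S₂(Γ₀(M))` over `ℂ` (S23). -/
theorem span_latBasis_eq_top :
    Submodule.span ℂ (Set.range fun i => ((latBasis M i : ↥(intLattice M 2)) :
      CuspForm (Gamma0 M) 2)) = ⊤ := by
  have h := Fermat.Agent.S23.result M
  unfold CuspForm.HasIntegralStructure at h
  rw [eq_top_iff, ← h, Submodule.span_le]
  intro f hf
  have hf' : f ∈ intLattice M 2 := hf
  have e := (latBasis M).sum_repr ⟨f, hf'⟩
  have e' : f = ∑ i, (latBasis M).repr ⟨f, hf'⟩ i •
      ((latBasis M i : ↥(intLattice M 2)) : CuspForm (Gamma0 M) 2) := by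
    have h1 := congrArg (Subtype.val) e
    rw [AddSubmonoidClass.coe_finsetSum] at h1
    exact h1.symm
  rw [e']
  refine Submodule.sum_mem _ fun i _ => ?_
  rw [← Int.cast_smul_eq_zsmul ℂ]
  exact Submodule.smul_mem _ _ (Submodule.subset_span ⟨i, rfl⟩)

/-- The basis of `L` is linearly independent over `ℂ`. -/
theorem linearIndependent_latBasis :
    LinearIndependent ℂ fun i => ((latBasis M i : ↥(intLattice M 2)) :
      CuspForm (Gamma0 M) 2) := by
  classical
  rw [Fintype.linearIndependent_iff]
  intro c hc i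
  rw [← Module.forall_dual_apply_eq_zero_iff ℚ]
  intro ψ
  -- clear denominators
  set r : LatIdx M → ℚ := fun j => ψ (c j) with hr
  set D : ℕ := ∏ j, (r j).den with hD
  have hD0 : D ≠ 0 := Finset.prod_ne_zero_iff.mpr fun j _ => (r j).den_ne_zero
  have hz : ∀ j, ∃ z : ℤ, (z : ℚ) = D * r j := by
    intro j
    have hdj : (r j).den ∣ D := Finset.dvd_prod_of_mem _ (Finset.mem_univ j)
    obtain ⟨e, he⟩ := hdj
    refine ⟨e * (r j).num, ?_⟩
    have h1 := Rat.mul_den_eq_num (r j)
    rw [he]
    push_cast
    rw [← h1]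
    ring
  choose z hz using hz
  set F : ↥(intLattice M 2) := ∑ j, z j • latBasis M j with hF
  have hcoef : ∀ n, coeffZLin M F n = 0 := by
    intro n
    have h1 : coeffZLin M F n = ∑ j, z j * coeffZLin M (latBasis M j) n := by
      rw [hF, map_sum, Finset.sum_apply]
      refine Finset.sum_congr rfl fun j _ => ?_
      rw [map_zsmul, Pi.smul_apply, smul_eq_mul]
    -- the complex relation on coefficients
    have h2 : ∑ j, c j * (coeffZLin M (latBasis M j) n : ℂ) = 0 := by
      have h3 : ∀ (s : Finset (LatIdx M)),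
          qCoeff (⇑(∑ j ∈ s, c j • ((latBasis M j : ↥(intLattice M 2)) :
            CuspForm (Gamma0 M) 2))) n = ∑ j ∈ s, c j * (coeffZLin M (latBasis M j) n : ℂ) := by
        intro s
        induction s using Finset.induction_on with
        | empty =>
          rw [Finset.sum_empty, Finset.sum_empty]
          have h := glue_qCoeff_smul (N := M) 0 (0 : CuspForm (Gamma0 M) 2) n
          rwa [zero_smul, zero_mul] at h
        | insert a s ha ih =>
          rw [Finset.sum_insert ha, Finset.sum_insert ha, glue_qCoeff_add, ih,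
            glue_qCoeff_smul, coeffZLin_spec]
      rw [← h3, hc]
      have h := glue_qCoeff_smul (N := M) 0 (0 : CuspForm (Gamma0 M) 2) n
      rwa [zero_smul, zero_mul] at h
    have h4 : ∑ j, r j * (coeffZLin M (latBasis M j) n : ℚ) = 0 := by
      have h5 := congrArg ψ h2
      rw [map_sum, map_zero] at h5
      rw [← h5]
      refine Finset.sum_congr rfl fun j _ => ?_
      have h6 : c j * (coeffZLin M (latBasis M j) n : ℂ) =
          ((coeffZLin M (latBasis M j) n : ℤ) : ℚ) • c j := by
        rw [Algebra.smul_def, mul_comm]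
        simp
      rw [h6, map_smul, smul_eq_mul, mul_comm]
    apply Int.cast_injective (α := ℚ)
    rw [h1]
    push_cast
    have h7 : ∑ j, (z j : ℚ) * (coeffZLin M (latBasis M j) n : ℚ) =
        D * ∑ j, r j * (coeffZLin M (latBasis M j) n : ℚ) := by
      rw [Finset.mul_sum]
      refine Finset.sum_congr rfl fun j _ => ?_
      rw [hz j]
      ring
    rw [h7, h4, mul_zero]
  have hF0 : F = 0 := coeffZLin_injective (by
    funext n
    rw [hcoef n, map_zero, Pi.zero_apply])
  have h8 : z i = 0 := by
    have h9 : (latBasis M).repr F i = z i := by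
      rw [hF]
      exact congrFun ((latBasis M).repr_sum_self z) i
    rw [← h9, hF0, map_zero, Finsupp.zero_apply]
  have h10 := hz i
  rw [h8, Int.cast_zero] at h10
  have hDq : (D : ℚ) ≠ 0 := Nat.cast_ne_zero.mpr hD0
  rcases mul_eq_zero.mp h10.symm with h | h
  · exact absurd h hDq
  · exact h

/-- `rank_ℤ L = dim_ℂ S₂(Γ₀(M))`. -/
theorem card_latIdx_eq_finrank :
    Fintype.card (LatIdx M) = Module.finrank ℂ (CuspForm (Gamma0 M) 2) := by
  have b : Module.Basis (LatIdx M) ℂ (CuspForm (Gamma0 M) 2) :=
    Module.Basis.mk linearIndependent_latBasis (by rw [span_latBasis_eq_top])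
  exact (Module.finrank_eq_card_basis b).symm

/-- **RANK.** -/
theorem rank_proved : RankStatement := by
  intro p M _ hp k _ _
  have hfin : Module.Finite k (redForms k M) := by
    rw [redForms_eq_span_basis]
    exact Module.Finite.span_of_finite k (Set.finite_range _)
  refine ⟨hfin, ?_⟩
  rw [← card_latIdx_eq_finrank, redForms_eq_span_basis]
  exact finrank_span_eq_card (linearIndependent_redLin_basis hp k)

end Basis

end Fermat.Agent.Ribet.H764.I3
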