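import Fermat.Agent.Ribet.H764.I3Lift
import Fermat.Agent.Ribet.H764.I3Rank
import Fermat.Agent.Ribet.H764.I3Glue

/-!
# I3 = W-R3P, current status (helper764)

PROVED: `lift_proved : LiftStatement`, `desc_proved : DescStatement`, `rank_proved : RankStatement`,
glue `r3p_of`, `logDiffForms_of`.  Hence

* `r3p_of_logDiffForms : LogDiffFormsStatement → R3PStatement`
* `r3p_of_geo : IncStatement → DimStatement → LogHolStatement → R3PStatement`

OPEN leaves (geometry of `X₀(M)_k`, `p ∤ M`): INC, DIMK, LOGHOL.
-/

set_option autoImplicit false

namespace Fermat.Agent.Ribet.H764.I3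

/-- I3 from the geometric heart alone. -/
theorem r3p_of_logDiffForms (hG : LogDiffFormsStatement) : R3PStatement :=
  r3p_of lift_proved desc_proved hG

/-- I3 from the three open geometric leaves. -/
theorem r3p_of_geo (hI : IncStatement) (hD : DimStatement) (hH : LogHolStatement) :
    R3PStatement :=
  r3p_of_logDiffForms (logDiffForms_of hI hD rank_proved hH)

end Fermat.Agent.Ribet.H764.I3
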