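import Fermat.Agent.Ribet.H764.I3At
import Fermat.Agent.Ribet.H944.WallTargets

/-!
# I3 ⇒ target (S3) of the wall (helper764)

`H944.Wall.S3For p M' 𝓕 𝒮` (target of I3 in `WallTargets.lean`) from

* `I2OutFor p M' k 𝓕 𝒮` — the OUTPUT CONTRACT of SLOPE + DLOG (I1/I2): a new eigenclass
  `x ∈ 𝓕 ∖ 𝒮` produces `h ∈ F_k = modularFunctionFieldFullC k M'` (the reduction of `f_x` on a
  component on which it is not a `p`-th power), `p ∣ div h`, and the nonzero `q`-series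
  `g = θh / h`, which is a `T_ℓ`-eigen-series with eigenvalue `a_ℓ` off `S ∪ S₁`
  (`S₁` finite, chosen by the producer: e.g. the primes dividing `p·M'`);
* `R3PAt p M' k` — I3 at `k` (`I3At.lean`).
-/

set_option autoImplicit false
set_option linter.style.haveILetI false

open CuspForm ModularFormClass ModularCurve AlgebraicCurve

namespace Fermat.Agent.Ribet.H764.I3

open Fermat.Agent.Ribet.H944.Wall

/-- `Lowered` is monotone in the excluded set. -/
theorem lowered_mono {M' p : ℕ} [NeZero M'] {S T : Finset ℕ} {a : ℕ → ℤ} (hST : S ⊆ T)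
    (h : Lowered M' p T a) : Lowered M' p S a := by
  obtain ⟨S', hS', h'⟩ := h
  exact ⟨S', hST.trans hS', h'⟩

/-- **Output contract of SLOPE + DLOG (I1/I2) for (S3).** -/
def I2OutFor (p M' : ℕ) [NeZero M'] [NeZero p] [NeZero (p * M')] (k : Type) [Field k]
    (𝓕 𝒮 : AddSubgroup (JZero (p * M'))) : Prop :=
  ∀ (S : Finset ℕ) (a : ℕ → ℤ), ∀ x ∈ 𝓕, x ∉ 𝒮 → IsNewTors p M' x →
    EigenAt (p * M') S a x →
      ∃ (S₁ : Finset ℕ) (h : modularFunctionFieldFullC k M') (g : PowerSeries k),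
        h ≠ 0 ∧ (∀ Q : Place k (modularFunctionFieldFullC k M'), (p : ℤ) ∣ Q.ord h) ∧
        IsDlog (h : LaurentSeries k) g ∧ g ≠ 0 ∧ IsEigenSeries M' (S ∪ S₁) a g

/-- **(S3) from the contract and I3 at `k`.** -/
theorem s3For_of {p M' : ℕ} [NeZero M'] [NeZero p] [NeZero (p * M')] {k : Type} [Field k]
    {𝓕 𝒮 : AddSubgroup (JZero (p * M'))} (hI2 : I2OutFor p M' k 𝓕 𝒮) (hR : R3PAt p M' k) :
    S3For p M' 𝓕 𝒮 := by
  intro S a x hx hxS hnew heig
  obtain ⟨S₁, h, g, h0, hdiv, hg, hg0, hge⟩ := hI2 S a x hx hxS hnew heig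
  exact lowered_mono Finset.subset_union_left (hR (S ∪ S₁) a h h0 hdiv g hg hg0 hge)

/-- **(S3) from the contract and the three geometric leaves at `k`.** -/
theorem s3For_of_geo {p M' : ℕ} [NeZero M'] [NeZero p] [NeZero (p * M')] {k : Type} [Field k]
    [CharP k p] (hp : p.Prime) {𝓕 𝒮 : AddSubgroup (JZero (p * M'))}
    (hI2 : I2OutFor p M' k 𝓕 𝒮) (hI : IncAt M' k) (hD : DimAt M' k) (hH : LogHolAt p M' k) :
    S3For p M' 𝓕 𝒮 :=
  s3For_of hI2 (r3pAt_of_geo hp hI hD hH)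

end Fermat.Agent.Ribet.H764.I3
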