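import Fermat.Agent.Ribet.Spec
import Fermat.Agent.Lib.Cheb.Chebotarev
import Fermat.Agent.S54.FrobExists

/-!
# Row RIBET, pieces G2 / R3' : the common core (helper764)

`congruence_transport`: let `g` be a normalised eigenform of level `M`, `𝔪` a maximal ideal of
`ℤ̄` over `p`, and `W₀` an integral model of the Frey curve such that
`a_ℓ(g) ≡ a_ℓ(W₀) mod 𝔪` for all primes `ℓ` outside a finite set `S` at which `W₀` is good.
Then for EVERY integral model `W` and EVERY prime `ℓ₀ ∤ M p` at which `W` is good,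
`a_{ℓ₀}(g) ≡ a_{ℓ₀}(W) mod 𝔪`.

Inputs (as hypotheses): frozen S42 (`Spec.S42Statement`) and the trace formula
(`Spec.TraceFormulaStatement`).  Landed inputs: exact Chebotarev
(`Fermat.Agent.Lib.Cheb.chebotarev`) and existence of Frobenius elements
(`Fermat.Agent.S54.exists_frobenius`).
-/

set_option autoImplicit false

open WeierstrassCurve WeierstrassCurve.Affine WeierstrassCurve.Affine.Point
open CuspForm ModularFormClass

namespace Fermat.Agent.Ribet.H764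

open Fermat.Agent.Ribet.Spec

/-- The discriminant of an integral model vanishes iff the discriminant of the curve does. -/
theorem disc_ne_zero_iff_of_isIntegralModelOf {W : WeierstrassCurve ℤ} {E : WeierstrassCurve ℚ}
    (h : W.IsIntegralModelOf E) : W.Δ ≠ 0 ↔ E.Δ ≠ 0 := by
  obtain ⟨C, hC⟩ := h
  have h1 : ((W.Δ : ℤ) : ℚ) = ((C.u⁻¹ : ℚˣ) : ℚ) ^ 12 * E.Δ := by
    have := congrArg WeierstrassCurve.Δ hC
    rw [WeierstrassCurve.variableChange_Δ, WeierstrassCurve.map_Δ] at this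
    simpa using this.symm
  have hu : ((C.u⁻¹ : ℚˣ) : ℚ) ^ 12 ≠ 0 := pow_ne_zero _ (Units.ne_zero _)
  constructor
  · intro hW hE
    apply hW
    have : ((W.Δ : ℤ) : ℚ) = 0 := by rw [h1, hE, mul_zero]
    exact_mod_cast this
  · intro hE hW
    apply hE
    have : ((C.u⁻¹ : ℚˣ) : ℚ) ^ 12 * E.Δ = 0 := by rw [← h1, hW]; simp
    exact (mul_eq_zero.mp this).resolve_left hu

/-- A good prime forces the discriminant of the model to be nonzero. -/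
theorem disc_ne_zero_of_isGoodPrimeFor {W : WeierstrassCurve ℤ} {ℓ : ℕ}
    (h : W.IsGoodPrimeFor ℓ) : W.Δ ≠ 0 := by
  intro h0
  apply h
  rw [h0]
  exact dvd_zero _

/-- A curve over `ℚ` with an integral model having a good prime is elliptic. -/
theorem isElliptic_of_model {W : WeierstrassCurve ℤ} {E : WeierstrassCurve ℚ}
    (h : W.IsIntegralModelOf E) {ℓ : ℕ} (hg : W.IsGoodPrimeFor ℓ) : E.IsElliptic :=
  ⟨isUnit_iff_ne_zero.mpr
    ((disc_ne_zero_iff_of_isIntegralModelOf h).mp (disc_ne_zero_of_isGoodPrimeFor hg))⟩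

/-- Primes outside the prime factors of the (nonzero) discriminant are good. -/
theorem isGoodPrimeFor_of_not_mem {W : WeierstrassCurve ℤ} (hW : W.Δ ≠ 0) {ℓ : ℕ}
    (hℓ : ℓ.Prime) (h : ℓ ∉ W.Δ.natAbs.primeFactors) : W.IsGoodPrimeFor ℓ := by
  intro hdvd
  apply h
  rw [Nat.mem_primeFactors]
  refine ⟨hℓ, ?_, by simpa using hW⟩
  exact Int.natCast_dvd.mp hdvd

/-- If `τ` and `σ` agree on the image of `F` in `ℚ̄`, then `σ⁻¹ * τ` restricts trivially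
to `F`. -/
theorem inv_mul_mem_ker_restrictNormalHom (F : Type) [Field F] [NumberField F] [IsGalois ℚ F]
    [Algebra F (AlgebraicClosure ℚ)] [IsScalarTower ℚ F (AlgebraicClosure ℚ)]
    (σ τ : GQ)
    (h : ∀ x ∈ (IsScalarTower.toAlgHom ℚ F (AlgebraicClosure ℚ)).fieldRange, τ x = σ x) :
    σ⁻¹ * τ ∈ (AlgEquiv.restrictNormalHom (F := ℚ) (K₁ := AlgebraicClosure ℚ) F).ker := by
  rw [MonoidHom.mem_ker, map_mul, map_inv, inv_mul_eq_one]
  apply AlgEquiv.ext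
  intro x
  apply (algebraMap F (AlgebraicClosure ℚ)).injective
  show algebraMap F _ (σ.restrictNormal F x) = algebraMap F _ (τ.restrictNormal F x)
  rw [AlgEquiv.restrictNormal_commutes, AlgEquiv.restrictNormal_commutes]
  exact (h _ ⟨x, rfl⟩).symm

/-- **Core of G2 / R3'.**  A congruence `a_ℓ(g) ≡ a_ℓ(W₀) mod 𝔪` for almost all good primes
of one integral model `W₀` of the Frey curve propagates to all good primes `ℓ₀ ∤ M p` of any
integral model `W`. -/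
theorem congruence_transport (h42 : S42Statement) (hTF : TraceFormulaStatement)
    (P : FreyPackage) (M : ℕ) (hM : 0 < M)
    (g : CuspForm (CongruenceSubgroup.Gamma0 M) 2) (hg : g.IsNormalizedEigenform)
    (𝔪 : Ideal (integralClosure ℤ ℂ)) (h𝔪 : 𝔪.IsMaximal)
    (hp : (P.p : integralClosure ℤ ℂ) ∈ 𝔪)
    (W₀ : WeierstrassCurve ℤ) (hW₀ : W₀.IsIntegralModelOf P.freyCurve) (S : Finset ℕ)
    (hcong : ∀ ℓ : ℕ, ℓ.Prime → ℓ ∉ S → W₀.IsGoodPrimeFor ℓ →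
      ∃ b : integralClosure ℤ ℂ, (b : ℂ) = qCoeff g ℓ ∧
        b - ((W₀.apOfModel ℓ : ℤ) : integralClosure ℤ ℂ) ∈ 𝔪)
    (W : WeierstrassCurve ℤ) (hW : W.IsIntegralModelOf P.freyCurve)
    (ℓ₀ : ℕ) (hℓ₀ : ℓ₀.Prime) (hgood : W.IsGoodPrimeFor ℓ₀) (hℓ₀M : ¬ ℓ₀ ∣ M)
    (hℓ₀p : ℓ₀ ≠ P.p) :
    ∃ a : integralClosure ℤ ℂ, (a : ℂ) = qCoeff g ℓ₀ ∧
      a - ((W.apOfModel ℓ₀ : ℤ) : integralClosure ℤ ℂ) ∈ 𝔪 := by
  have hell : P.freyCurve.IsElliptic := isElliptic_of_model hW hgood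
  have hEΔ : P.freyCurve.Δ ≠ 0 :=
    (disc_ne_zero_iff_of_isIntegralModelOf hW).mp (disc_ne_zero_of_isGoodPrimeFor hgood)
  have hW₀Δ : W₀.Δ ≠ 0 := (disc_ne_zero_iff_of_isIntegralModelOf hW₀).mpr hEΔ
  obtain ⟨K, _, _, V, _, _, ρ, ψ, F, _, _, _, _, _, h𝔪ψ, -, hker, htr, -⟩ :=
    h42 P M hM g hg 𝔪 h𝔪 hp
  obtain ⟨A₀, σ₀, hA₀, hσ₀⟩ := Fermat.Agent.S54.exists_frobenius ℓ₀ hℓ₀
  obtain ⟨ℓ, A, τ, hℓ, hℓS, hA, hτ, -, hτσ⟩ := Fermat.Agent.Lib.Cheb.chebotarev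
    (IsScalarTower.toAlgHom ℚ F (AlgebraicClosure ℚ)).fieldRange
    ((IsScalarTower.toAlgHom ℚ F (AlgebraicClosure ℚ)).toLinearMap.finiteDimensional_range) σ₀
    (S ∪ M.primeFactors ∪ {P.p} ∪ W₀.Δ.natAbs.primeFactors)
  simp only [Finset.mem_union, Finset.mem_singleton, not_or] at hℓS
  obtain ⟨⟨⟨hℓS, hℓM⟩, hℓp⟩, hℓbad⟩ := hℓS
  have hℓM' : ¬ ℓ ∣ M := fun h => hℓM (Nat.mem_primeFactors.mpr ⟨hℓ, h, hM.ne'⟩)
  have hℓgood : W₀.IsGoodPrimeFor ℓ := isGoodPrimeFor_of_not_mem hW₀Δ hℓ hℓbad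
  -- `σ₀⁻¹ τ` acts trivially through both representations
  have hmem := hker (inv_mul_mem_ker_restrictNormalHom F σ₀ τ hτσ)
  obtain ⟨hmemE, hmemρ⟩ := hmem
  have hρ : ρ τ = ρ σ₀ := by
    have h1 : ρ (σ₀⁻¹ * τ) = 1 := hmemρ
    have h2 : ρ τ = ρ (σ₀ * (σ₀⁻¹ * τ)) := by rw [mul_inv_cancel_left]
    rw [h2, map_mul, h1, mul_one]
  have hE : galoisTrace (S := ℚ) (K := AlgebraicClosure ℚ) P.freyCurve P.p τ =
      galoisTrace (S := ℚ) (K := AlgebraicClosure ℚ) P.freyCurve P.p σ₀ := by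
    have h1 : galoisRepModuleEnd (S := ℚ) (K := AlgebraicClosure ℚ) P.freyCurve P.p
        (σ₀⁻¹ * τ) = 1 := hmemE
    have h2 : galoisRepModuleEnd (S := ℚ) (K := AlgebraicClosure ℚ) P.freyCurve P.p τ =
        galoisRepModuleEnd (S := ℚ) (K := AlgebraicClosure ℚ) P.freyCurve P.p σ₀ := by
      have h3 : galoisRepModuleEnd (S := ℚ) (K := AlgebraicClosure ℚ) P.freyCurve P.p τ =
          galoisRepModuleEnd (S := ℚ) (K := AlgebraicClosure ℚ) P.freyCurve P.p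
            (σ₀ * (σ₀⁻¹ * τ)) := by rw [mul_inv_cancel_left]
      rw [h3, map_mul, h1, mul_one]
    rw [galoisTrace_def, galoisTrace_def, h2]
  -- the trace of `ρ τ`
  obtain ⟨a, haC, hatr⟩ := htr ℓ hℓ hℓM' hℓp A hA τ hτ
  obtain ⟨b, hbC, hb𝔪⟩ := hcong ℓ hℓ hℓS hℓgood
  have hab : a = b := Subtype.ext (haC.trans hbC.symm)
  have hψb : ψ b = ((W₀.apOfModel ℓ : ℤ) : K) := by
    have := h𝔪ψ hb𝔪
    rw [RingHom.mem_ker, map_sub, sub_eq_zero, map_intCast] at this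
    exact this
  have hTFτ := hTF P.freyCurve W₀ hW₀ P.p ℓ P.pp hℓ hℓp hℓgood A hA τ hτ
  have hTFσ := hTF P.freyCurve W hW P.p ℓ₀ P.pp hℓ₀ hℓ₀p hgood A₀ hA₀ σ₀ hσ₀
  obtain ⟨a₀, ha₀C, ha₀tr⟩ := htr ℓ₀ hℓ₀ hℓ₀M hℓ₀p A₀ hA₀ σ₀ hσ₀
  refine ⟨a₀, ha₀C, ?_⟩
  have hkerψ : RingHom.ker ψ = 𝔪 := (h𝔪.eq_of_le (RingHom.ker_ne_top ψ) h𝔪ψ).symm
  rw [← hkerψ, RingHom.mem_ker, map_sub, sub_eq_zero, map_intCast]
  calc ψ a₀ = LinearMap.trace K V (ρ σ₀) := ha₀tr.symm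
    _ = LinearMap.trace K V (ρ τ) := by rw [hρ]
    _ = ψ a := hatr
    _ = ((W₀.apOfModel ℓ : ℤ) : K) := by rw [hab, hψb]
    _ = algebraMap (ZMod P.p) K (((W₀.apOfModel ℓ : ℤ) : ZMod P.p)) := (map_intCast _ _).symm
    _ = algebraMap (ZMod P.p) K
          (galoisTrace (S := ℚ) (K := AlgebraicClosure ℚ) P.freyCurve P.p τ) := by rw [hTFτ]
    _ = algebraMap (ZMod P.p) K
          (galoisTrace (S := ℚ) (K := AlgebraicClosure ℚ) P.freyCurve P.p σ₀) := by rw [hE]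
    _ = algebraMap (ZMod P.p) K (((W.apOfModel ℓ₀ : ℤ) : ZMod P.p)) := by rw [hTFσ]
    _ = ((W.apOfModel ℓ₀ : ℤ) : K) := map_intCast _ _

end Fermat.Agent.Ribet.H764
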