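import Fermat.Agent.Ribet.H764.TraceCore
import Fermat.Agent.Ribet.Spec2
import Fermat.Agent.Ribet.H224.IrrTransport
import Fermat.Agent.Lib.Frob.Small.All
import Fermat.Agent.S55.H414.CycloPow
import Fermat.Agent.S41.H701.FinrankTorsion

/-!
# Row RIBET, pieces G2 / R3' WITHOUT the trace formula  (helper764)

`congruence_transport_free` is `congruence_transport` of `TraceCore.lean` with the hypothesis
`Spec.TraceFormulaStatement` REMOVED: the only inputs are frozen S42 (as a hypothesis) and landed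
libraries (exact Chebotarev `Lib.Cheb.chebotarev`, the Frobenius relation at every good prime
`Lib.Frob.Small.frobRelationAll`, `#E[p] = p²`, Frobenius on roots of unity).

Idea.  Let `σ₀` be a Frobenius at `ℓ₀` and `τ` a Frobenius at an auxiliary prime `ℓ` (Chebotarev)
agreeing with `σ₀` on the field cut out by `ρ_g`, `E[p]` and `ζ_p`.  Then `ℓ ≡ ℓ₀ mod p`, and the
two Frobenius relations
`σ₀² - a_{ℓ₀}(W) σ₀ + ℓ₀ = 0`, `τ² - a_ℓ(W₀) τ + ℓ = 0` on `E[p]` (same operator!) give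
`(a_ℓ(W₀) - a_{ℓ₀}(W)) σ₀ = 0` on `E[p] ≠ 0`, i.e. `a_ℓ(W₀) ≡ a_{ℓ₀}(W) mod p`.
No determinant, no trace on `E[p]`, no Weil pairing.

Deliverables (all with frozen S42 as the ONLY hypothesis):
* `modelTransport_of_S42 : S42Statement → ModelTransportStatement`            (G2)
* `almostAllToWitness_of_S42 : S42Statement → AlmostAllToWitnessStatement`    (R3')
* `almostAllToWitness_of_frey`, `modelTransport_of_frey` : the shapes requested by the row-lead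
  (with an unused `TraceFormulaFreyStatement` hypothesis).
-/

set_option autoImplicit false

open WeierstrassCurve WeierstrassCurve.Affine WeierstrassCurve.Affine.Point
open CuspForm ModularFormClass

namespace Fermat.Agent.Ribet.H764

open Fermat.Agent.Ribet.Spec

local notation "Qbar" => AlgebraicClosure ℚ

/-- If `p • Q = 0`, `a • Q = 0` and `Q ≠ 0` in an additive group, with `p` prime, then `p ∣ a`. -/
theorem int_dvd_of_zsmul_eq_zero {G : Type*} [AddCommGroup G] {p : ℕ} (hp : p.Prime) {Q : G}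
    (hQ : Q ≠ 0) (hpQ : (p : ℤ) • Q = 0) {a : ℤ} (ha : a • Q = 0) : (p : ℤ) ∣ a := by
  by_contra hnd
  have hcop : IsCoprime (p : ℤ) a :=
    (Prime.coprime_iff_not_dvd (Nat.prime_iff_prime_int.mp hp)).mpr hnd
  obtain ⟨u, v, huv⟩ := hcop
  have h0 : (u * (p : ℤ) + v * a) • Q = 0 := by
    rw [add_smul, mul_smul, mul_smul, hpQ, ha, smul_zero, smul_zero, add_zero]
  rw [huv, one_smul] at h0
  exact hQ h0

/-- **Frobenius relation on the torsion of a curve over `ℚ`** having an integral model `W` with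
good reduction at `ℓ`: `σ²x - a_ℓ(W) σx + ℓ x = 0` for every point `x` killed by `n` prime to
`ℓ`. -/
theorem frob_relation_of_model (E : WeierstrassCurve ℚ) (W : WeierstrassCurve ℤ)
    (hW : W.IsIntegralModelOf E) (ℓ : ℕ) (hℓ : ℓ.Prime) (hgood : W.IsGoodPrimeFor ℓ)
    (A : ValuationSubring Qbar) (σ : GQ) (hA : A.LiesOverPrime ℓ) (hσ : A.IsFrobeniusAt σ ℓ)
    (n : ℕ) (hn : 0 < n) (hℓn : ¬ ℓ ∣ n) (x : (E⁄Qbar).Point) (hx : n • x = 0) :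
    σ • σ • x - W.apOfModel ℓ • σ • x + (ℓ : ℤ) • x = 0 := by
  obtain ⟨C, hC⟩ := hW
  have key : ∀ E' : WeierstrassCurve ℚ, E' = W.map (Int.castRingHom ℚ) →
      ∀ P : (E'⁄Qbar).Point, n • P = 0 →
        σ • σ • P - W.apOfModel ℓ • σ • P + (ℓ : ℤ) • P = 0 := by
    rintro _ rfl P hP
    exact Fermat.Agent.Lib.Frob.Small.frobRelationAll W ℓ hℓ hgood A σ hA hσ n hn hℓn P hP
  set y := (Fermat.Agent.Lib.VC.vcPointBC E C Qbar).symm x with hy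
  have hyx : Fermat.Agent.Lib.VC.vcPointBC E C Qbar y = x := AddEquiv.apply_symm_apply _ _
  have hny : n • y = 0 := by
    rw [hy, ← map_nsmul, hx, _root_.map_zero]
  have h1 := key (C • E) hC y hny
  have h2 := congrArg (Fermat.Agent.Lib.VC.vcPointBC E C Qbar) h1
  rw [_root_.map_zero, map_add, map_sub, map_zsmul, map_zsmul] at h2
  simp only [H224.vcPointBC_smul, hyx] at h2
  exact h2

/-- A Frobenius element at `ℓ ≠ p` raises `p`-th roots of unity to the `ℓ`-th power. -/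
theorem frob_apply_root_h764 (p : ℕ) (hp : p.Prime) (ℓ : ℕ) (hℓ : ℓ.Prime) (hℓp : ℓ ≠ p)
    (A : ValuationSubring Qbar) (τ : GQ) (hA : A.LiesOverPrime ℓ) (hτ : A.IsFrobeniusAt τ ℓ)
    (μ : Qbar) (hμ : μ ^ p = 1) : τ μ = μ ^ ℓ := by
  have hv : A.valuation ((p : ℕ) : Qbar) = 1 :=
    Fermat.Agent.S55.Bridge.val_prime_eq_one hA hℓ hp hℓp
  exact Fermat.Agent.S55.H414.IsFrobeniusAt_apply_root hτ hp.ne_zero hv hμ

/-- Equal powers of a primitive `p`-th root of unity have exponents congruent mod `p`. -/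
theorem int_dvd_sub_of_pow_eq {K : Type*} [Field K] {ζ : K} {p : ℕ}
    (hζ : IsPrimitiveRoot ζ p) (hp : p ≠ 0) {m n : ℕ} (h : ζ ^ m = ζ ^ n) :
    (p : ℤ) ∣ (m : ℤ) - n := by
  have hζ0 : ζ ≠ 0 := hζ.ne_zero hp
  have key : ∀ {a b : ℕ}, b ≤ a → ζ ^ a = ζ ^ b → (p : ℤ) ∣ (a : ℤ) - b := by
    intro a b hba hab
    have h1 : ζ ^ (a - b) = 1 := by
      have : ζ ^ b * ζ ^ (a - b) = ζ ^ b * 1 := by
        rw [← pow_add, Nat.add_sub_cancel' hba, mul_one, hab]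
      exact mul_left_cancel₀ (pow_ne_zero b hζ0) this
    have h2 := (hζ.pow_eq_one_iff_dvd _).mp h1
    have h3 : ((a - b : ℕ) : ℤ) = (a : ℤ) - b := Nat.cast_sub hba
    rw [← h3]
    exact_mod_cast h2
  rcases le_total n m with hnm | hnm
  · exact key hnm h
  · exact (dvd_sub_comm).mp (key hnm h.symm)

/-- **Core of G2 / R3', without the trace formula.** -/
theorem congruence_transport_free (h42 : S42Statement)
    (P : FreyPackage) (M : ℕ) (hM : 0 < M)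
    (g : CuspForm (CongruenceSubgroup.Gamma0 M) 2) (hg : g.IsNormalizedEigenform)
    (𝔪 : Ideal (integralClosure ℤ ℂ)) (h𝔪 : 𝔪.IsMaximal)
    (hp : (P.p : integralClosure ℤ ℂ) ∈ 𝔪)
    (W₀ : WeierstrassCurve ℤ) (hW₀ : W₀.IsIntegralModelOf P.freyCurve) (S : Finset ℕ)
    (hcong : ∀ ℓ : ℕ, ℓ.Prime → ℓ ∉ S → W₀.IsGoodPrimeFor ℓ →
      ∃ b : integralClosure ℤ ℂ, (b : ℂ) = qCoeff g ℓ ∧
        b - ((W₀.apOfModel ℓ : ℤ) : integralClosure ℤ ℂ) ∈ 𝔪)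
    (W : WeierstrassCurve ℤ) (hW : W.IsIntegralModelOf P.freyCurve)
    (ℓ₀ : ℕ) (hℓ₀ : ℓ₀.Prime) (hgood : W.IsGoodPrimeFor ℓ₀) (hℓ₀M : ¬ ℓ₀ ∣ M)
    (hℓ₀p : ℓ₀ ≠ P.p) :
    ∃ a : integralClosure ℤ ℂ, (a : ℂ) = qCoeff g ℓ₀ ∧
      a - ((W.apOfModel ℓ₀ : ℤ) : integralClosure ℤ ℂ) ∈ 𝔪 := by
  have hell : P.freyCurve.IsElliptic := isElliptic_of_model hW hgood
  have hEΔ : P.freyCurve.Δ ≠ 0 :=
    (disc_ne_zero_iff_of_isIntegralModelOf hW).mp (disc_ne_zero_of_isGoodPrimeFor hgood)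
  have hW₀Δ : W₀.Δ ≠ 0 := (disc_ne_zero_iff_of_isIntegralModelOf hW₀).mpr hEΔ
  have hpp : P.p.Prime := P.pp
  -- a nonzero `p`-torsion point of the Frey curve
  have hcard : Nat.card (Submodule.torsionBy ℤ (P.freyCurve⁄Qbar).Point P.p) = P.p ^ 2 :=
    Fermat.Agent.S41.H701.card_torsion_eq_sq_prelude_h701 (K := Qbar) P.freyCurve P.p
      hpp.one_le
  obtain ⟨x₀, hx₀⟩ : ∃ x : Submodule.torsionBy ℤ (P.freyCurve⁄Qbar).Point P.p, x ≠ 0 := by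
    by_contra hall
    simp only [ne_eq, not_exists, not_not] at hall
    have hsub : Subsingleton (Submodule.torsionBy ℤ (P.freyCurve⁄Qbar).Point P.p) :=
      ⟨fun a b => by rw [hall a, hall b]⟩
    have h1 : Nat.card (Submodule.torsionBy ℤ (P.freyCurve⁄Qbar).Point P.p) = 1 :=
      Nat.card_of_subsingleton 0
    rw [hcard] at h1
    have := hpp.one_lt
    nlinarith
  -- the residual representation attached to `g`
  obtain ⟨K, _, _, V, _, _, ρ, ψ, F, _, _, _, _, _, h𝔪ψ, -, hker, htr, -⟩ :=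
    h42 P M hM g hg 𝔪 h𝔪 hp
  obtain ⟨A₀, σ₀, hA₀, hσ₀⟩ := Fermat.Agent.S54.exists_frobenius ℓ₀ hℓ₀
  -- a primitive `p`-th root of unity
  have : NeZero (P.p : ℚ) := ⟨by exact_mod_cast hpp.ne_zero⟩
  obtain ⟨ζ, hζ⟩ := HasEnoughRootsOfUnity.exists_primitiveRoot Qbar P.p
  have hζp : ζ ^ P.p = 1 := hζ.pow_eq_one
  -- the auxiliary field
  have hfin1 : FiniteDimensional ℚ
      (IsScalarTower.toAlgHom ℚ F Qbar).fieldRange :=
    (IsScalarTower.toAlgHom ℚ F Qbar).toLinearMap.finiteDimensional_range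
  have hfin2 : FiniteDimensional ℚ (IntermediateField.adjoin ℚ ({ζ} : Set Qbar)) :=
    IntermediateField.adjoin.finiteDimensional
      ((AlgebraicClosure.isAlgebraic ℚ).isIntegral.isIntegral ζ)
  obtain ⟨ℓ, A, τ, hℓ, hℓS, hA, hτ, -, hτσ⟩ := Fermat.Agent.Lib.Cheb.chebotarev
    ((IsScalarTower.toAlgHom ℚ F Qbar).fieldRange ⊔ IntermediateField.adjoin ℚ ({ζ} : Set Qbar))
    inferInstance σ₀
    (S ∪ M.primeFactors ∪ {P.p} ∪ W₀.Δ.natAbs.primeFactors)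
  simp only [Finset.mem_union, Finset.mem_singleton, not_or] at hℓS
  obtain ⟨⟨⟨hℓS, hℓM⟩, hℓp⟩, hℓbad⟩ := hℓS
  have hℓM' : ¬ ℓ ∣ M := fun h => hℓM (Nat.mem_primeFactors.mpr ⟨hℓ, h, hM.ne'⟩)
  have hℓgood : W₀.IsGoodPrimeFor ℓ := isGoodPrimeFor_of_not_mem hW₀Δ hℓ hℓbad
  have hle1 : (IsScalarTower.toAlgHom ℚ F Qbar).fieldRange ≤
      (IsScalarTower.toAlgHom ℚ F Qbar).fieldRange ⊔
        IntermediateField.adjoin ℚ ({ζ} : Set Qbar) := le_sup_left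
  have hle2 : IntermediateField.adjoin ℚ ({ζ} : Set Qbar) ≤
      (IsScalarTower.toAlgHom ℚ F Qbar).fieldRange ⊔
        IntermediateField.adjoin ℚ ({ζ} : Set Qbar) := le_sup_right
  have hτσ1 : ∀ x ∈ (IsScalarTower.toAlgHom ℚ F Qbar).fieldRange, τ x = σ₀ x :=
    fun x hx => hτσ x (hle1 hx)
  have hτσζ : τ ζ = σ₀ ζ :=
    hτσ ζ (hle2 (IntermediateField.subset_adjoin ℚ _ rfl))
  -- `ℓ ≡ ℓ₀ mod p`
  have hcongr : (P.p : ℤ) ∣ (ℓ : ℤ) - ℓ₀ := by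
    apply int_dvd_sub_of_pow_eq hζ hpp.ne_zero
    rw [← frob_apply_root_h764 P.p hpp ℓ hℓ hℓp A τ hA hτ ζ hζp,
      ← frob_apply_root_h764 P.p hpp ℓ₀ hℓ₀ hℓ₀p A₀ σ₀ hA₀ hσ₀ ζ hζp, hτσζ]
  -- `σ₀⁻¹ τ` acts trivially through both representations
  obtain ⟨hmemE, hmemρ⟩ := hker (inv_mul_mem_ker_restrictNormalHom F σ₀ τ hτσ1)
  have hρ : ρ τ = ρ σ₀ := by
    have h1 : ρ (σ₀⁻¹ * τ) = 1 := hmemρ
    have h2 : ρ τ = ρ (σ₀ * (σ₀⁻¹ * τ)) := by rw [mul_inv_cancel_left]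
    rw [h2, map_mul, h1, mul_one]
  have hEq : galoisRepModuleEnd (S := ℚ) (K := Qbar) P.freyCurve P.p τ =
      galoisRepModuleEnd (S := ℚ) (K := Qbar) P.freyCurve P.p σ₀ := by
    have h1 : galoisRepModuleEnd (S := ℚ) (K := Qbar) P.freyCurve P.p (σ₀⁻¹ * τ) = 1 := hmemE
    have h3 : galoisRepModuleEnd (S := ℚ) (K := Qbar) P.freyCurve P.p τ =
        galoisRepModuleEnd (S := ℚ) (K := Qbar) P.freyCurve P.p (σ₀ * (σ₀⁻¹ * τ)) := by
      rw [mul_inv_cancel_left]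
    rw [h3, map_mul, h1, mul_one]
  have hact : ∀ y : Submodule.torsionBy ℤ (P.freyCurve⁄Qbar).Point P.p, τ • y = σ₀ • y := by
    intro y
    have := congrArg (fun f => f y) hEq
    simpa only [galoisRepModuleEnd_apply] using this
  have hcoe : ∀ (σ : GQ) (y : Submodule.torsionBy ℤ (P.freyCurve⁄Qbar).Point P.p),
      ((σ • y : Submodule.torsionBy ℤ (P.freyCurve⁄Qbar).Point P.p) :
        (P.freyCurve⁄Qbar).Point) = σ • (y : (P.freyCurve⁄Qbar).Point) := fun _ _ => rfl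
  -- the two Frobenius relations at the point `x₀`
  have hpx : (P.p : ℤ) • (x₀ : (P.freyCurve⁄Qbar).Point) = 0 :=
    (Submodule.mem_torsionBy_iff _ _).mp x₀.2
  have hpx' : P.p • (x₀ : (P.freyCurve⁄Qbar).Point) = 0 := by
    rw [← natCast_zsmul]; exact hpx
  have hℓ₀ndvd : ¬ ℓ₀ ∣ P.p := fun h => hℓ₀p ((Nat.prime_dvd_prime_iff_eq hℓ₀ hpp).mp h)
  have hℓndvd : ¬ ℓ ∣ P.p := fun h => hℓp ((Nat.prime_dvd_prime_iff_eq hℓ hpp).mp h)
  have r1 := frob_relation_of_model P.freyCurve W hW ℓ₀ hℓ₀ hgood A₀ σ₀ hA₀ hσ₀ P.p P.hppos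
    hℓ₀ndvd (x₀ : (P.freyCurve⁄Qbar).Point) hpx'
  have r2 := frob_relation_of_model P.freyCurve W₀ hW₀ ℓ hℓ hℓgood A τ hA hτ P.p P.hppos
    hℓndvd (x₀ : (P.freyCurve⁄Qbar).Point) hpx'
  have hτx : τ • (x₀ : (P.freyCurve⁄Qbar).Point) = σ₀ • (x₀ : (P.freyCurve⁄Qbar).Point) := by
    rw [← hcoe, ← hcoe, hact]
  have hττx : τ • σ₀ • (x₀ : (P.freyCurve⁄Qbar).Point) =
      σ₀ • σ₀ • (x₀ : (P.freyCurve⁄Qbar).Point) := by
    rw [← hcoe σ₀ x₀, ← hcoe, ← hcoe, hact]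
  rw [hτx, hττx] at r2
  -- the point `σ₀ x₀` is a nonzero `p`-torsion point
  have hy0 : σ₀ • (x₀ : (P.freyCurve⁄Qbar).Point) ≠ 0 := by
    rw [← hcoe]
    intro h0
    apply hx₀
    have h1 : σ₀ • x₀ = 0 := Subtype.ext h0
    have h2 := congrArg (fun z => σ₀⁻¹ • z) h1
    simpa using h2
  have hpy : (P.p : ℤ) • (σ₀ • (x₀ : (P.freyCurve⁄Qbar).Point)) = 0 := by
    rw [← hcoe]
    exact (Submodule.mem_torsionBy_iff _ _).mp (σ₀ • x₀).2
  have hℓx : ((ℓ : ℤ) - ℓ₀) • (x₀ : (P.freyCurve⁄Qbar).Point) = 0 := by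
    obtain ⟨d, hd⟩ := hcongr
    rw [hd, mul_comm, mul_smul, hpx]
    exact zsmul_zero d
  have hdiff : (W.apOfModel ℓ₀ - W₀.apOfModel ℓ) • (σ₀ • (x₀ : (P.freyCurve⁄Qbar).Point)) = 0 := by
    have e1 : W.apOfModel ℓ₀ • σ₀ • (x₀ : (P.freyCurve⁄Qbar).Point) =
        σ₀ • σ₀ • (x₀ : (P.freyCurve⁄Qbar).Point) + (ℓ₀ : ℤ) • (x₀ : (P.freyCurve⁄Qbar).Point) := by
      have h3 : σ₀ • σ₀ • (x₀ : (P.freyCurve⁄Qbar).Point) + (ℓ₀ : ℤ) • (x₀ : (P.freyCurve⁄Qbar).Point)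
          - W.apOfModel ℓ₀ • σ₀ • (x₀ : (P.freyCurve⁄Qbar).Point) = 0 := by
        rw [← r1]; abel
      exact (sub_eq_zero.mp h3).symm
    have e2 : W₀.apOfModel ℓ • σ₀ • (x₀ : (P.freyCurve⁄Qbar).Point) =
        σ₀ • σ₀ • (x₀ : (P.freyCurve⁄Qbar).Point) + (ℓ : ℤ) • (x₀ : (P.freyCurve⁄Qbar).Point) := by
      have h3 : σ₀ • σ₀ • (x₀ : (P.freyCurve⁄Qbar).Point) + (ℓ : ℤ) • (x₀ : (P.freyCurve⁄Qbar).Point)
          - W₀.apOfModel ℓ • σ₀ • (x₀ : (P.freyCurve⁄Qbar).Point) = 0 := by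
        rw [← r2]; abel
      exact (sub_eq_zero.mp h3).symm
    have e3 : (ℓ : ℤ) • (x₀ : (P.freyCurve⁄Qbar).Point) = (ℓ₀ : ℤ) • (x₀ : (P.freyCurve⁄Qbar).Point) := by
      rw [sub_smul] at hℓx
      exact sub_eq_zero.mp hℓx
    rw [sub_smul, e1, e2, e3, sub_self]
  have hdvd : (P.p : ℤ) ∣ W.apOfModel ℓ₀ - W₀.apOfModel ℓ :=
    int_dvd_of_zsmul_eq_zero hpp hy0 hpy hdiff
  -- conclusion
  obtain ⟨a, haC, hatr⟩ := htr ℓ hℓ hℓM' hℓp A hA τ hτ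
  obtain ⟨b, hbC, hb𝔪⟩ := hcong ℓ hℓ hℓS hℓgood
  have hab : a = b := Subtype.ext (haC.trans hbC.symm)
  have hψb : ψ b = ((W₀.apOfModel ℓ : ℤ) : K) := by
    have := h𝔪ψ hb𝔪
    rw [RingHom.mem_ker, map_sub, sub_eq_zero, map_intCast] at this
    exact this
  have hpK : ((P.p : ℤ) : K) = 0 := by
    have := h𝔪ψ hp
    rw [RingHom.mem_ker, map_natCast] at this
    exact_mod_cast this
  have hWW₀ : ((W.apOfModel ℓ₀ : ℤ) : K) = ((W₀.apOfModel ℓ : ℤ) : K) := by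
    obtain ⟨d, hd⟩ := hdvd
    have := congrArg (fun z : ℤ => (z : K)) hd
    simp only [Int.cast_sub, Int.cast_mul, hpK, zero_mul] at this
    exact sub_eq_zero.mp this
  obtain ⟨a₀, ha₀C, ha₀tr⟩ := htr ℓ₀ hℓ₀ hℓ₀M hℓ₀p A₀ hA₀ σ₀ hσ₀
  refine ⟨a₀, ha₀C, ?_⟩
  have hkerψ : RingHom.ker ψ = 𝔪 := (h𝔪.eq_of_le (RingHom.ker_ne_top ψ) h𝔪ψ).symm
  rw [← hkerψ, RingHom.mem_ker, map_sub, sub_eq_zero, map_intCast]
  calc ψ a₀ = LinearMap.trace K V (ρ σ₀) := ha₀tr.symm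
    _ = LinearMap.trace K V (ρ τ) := by rw [hρ]
    _ = ψ a := hatr
    _ = ((W₀.apOfModel ℓ : ℤ) : K) := by rw [hab, hψb]
    _ = ((W.apOfModel ℓ₀ : ℤ) : K) := hWW₀.symm

/-- (G2) Model transport from frozen S42 alone. -/
theorem modelTransport_of_S42 (h42 : S42Statement) : ModelTransportStatement := by
  intro P N hN hmod W hW
  obtain ⟨f, W₀, 𝔪, hf, hW₀, h𝔪, hp, hcong⟩ := hmod
  refine ⟨f, 𝔪, hf, h𝔪, hp, ?_⟩
  intro ℓ₀ hℓ₀ hgood hℓ₀N hℓ₀p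
  refine congruence_transport_free h42 P N hN f hf 𝔪 h𝔪 hp W₀ hW₀ (N.primeFactors ∪ {P.p}) ?_
    W hW ℓ₀ hℓ₀ hgood hℓ₀N hℓ₀p
  intro ℓ hℓ hℓS hℓgood
  simp only [Finset.mem_union, Finset.mem_singleton, not_or] at hℓS
  exact hcong ℓ hℓ hℓgood (fun h => hℓS.1 (Nat.mem_primeFactors.mpr ⟨hℓ, h, hN.ne'⟩)) hℓS.2

/-- (R3') Almost-all congruence ⇒ congruence witness, from frozen S42 alone. -/
theorem almostAllToWitness_of_S42 (h42 : S42Statement) : AlmostAllToWitnessStatement := by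
  intro P M hM g W 𝔪 S hg hW h𝔪 hp hcong
  refine ⟨hg, hW, h𝔪, hp, ?_⟩
  intro ℓ₀ hℓ₀ hgood hℓ₀M hℓ₀p
  exact congruence_transport_free h42 P M hM g hg 𝔪 h𝔪 hp W hW S
    (fun ℓ hℓ hℓS _ => hcong ℓ hℓ hℓS) W hW ℓ₀ hℓ₀ hgood hℓ₀M hℓ₀p

/-- Change of integral model in a congruence witness, from frozen S42 alone. -/
theorem isCongruentWitness_transport_free (h42 : S42Statement)
    (P : FreyPackage) (N : ℕ) (hN : 0 < N)
    (f : CuspForm (CongruenceSubgroup.Gamma0 N) 2) (W₀ W : WeierstrassCurve ℤ)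
    (𝔪 : Ideal (integralClosure ℤ ℂ)) (h : P.IsCongruentWitness N f W₀ 𝔪)
    (hW : W.IsIntegralModelOf P.freyCurve) : P.IsCongruentWitness N f W 𝔪 := by
  obtain ⟨hf, hW₀, h𝔪, hp, hcong⟩ := h
  refine ⟨hf, hW, h𝔪, hp, ?_⟩
  intro ℓ₀ hℓ₀ hgood hℓ₀N hℓ₀p
  refine congruence_transport_free h42 P N hN f hf 𝔪 h𝔪 hp W₀ hW₀ (N.primeFactors ∪ {P.p}) ?_
    W hW ℓ₀ hℓ₀ hgood hℓ₀N hℓ₀p
  intro ℓ hℓ hℓS hℓgood
  simp only [Finset.mem_union, Finset.mem_singleton, not_or] at hℓS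
  exact hcong ℓ hℓ hℓgood (fun h => hℓS.1 (Nat.mem_primeFactors.mpr ⟨hℓ, h, hN.ne'⟩)) hℓS.2

/-- (R3') in the shape requested by the row-lead (the Frey trace formula is not needed). -/
theorem almostAllToWitness_of_frey (h42 : S42Statement) (_hTF : TraceFormulaFreyStatement) :
    AlmostAllToWitnessStatement :=
  almostAllToWitness_of_S42 h42

/-- (G2) in the same shape (the Frey trace formula is not needed). -/
theorem modelTransport_of_frey (h42 : S42Statement) (_hTF : TraceFormulaFreyStatement) :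
    ModelTransportStatement :=
  modelTransport_of_S42 h42

end Fermat.Agent.Ribet.H764
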